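import Mathlib.Analysis.SpecialFunctions.Gamma.Beta
import Mathlib.Analysis.SpecialFunctions.Gamma.Deligne
import Mathlib.Analysis.Complex.LocallyUniformLimit
import Mathlib.Analysis.PSeries
import Mathlib.Analysis.SumIntegralComparisons
import Mathlib.Analysis.SpecialFunctions.Trigonometric.ArctanDeriv

/-!
# Stirling's formula for the argument of `Γ`

On `re z > 0` the logarithm of `Γ` is given by the limit of Gauss, and comparing the sum of
`arctan (t / (σ + j))` with its integral gives `im log Γ (σ + it) = t log |t| - t + O (1)` for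
`0 < σ ≤ 1`, `|t| ≥ 1`.
-/

set_option autoImplicit false

noncomputable section

namespace FA.RiemannMangoldt

open Complex Filter Topology MeasureTheory

/-- A term of the series for `log Γ`. -/
def gammaStep (k : ℕ) (z : ℂ) : ℂ :=
  z * ((Real.log (1 + 1 / (k + 1)) : ℝ) : ℂ) - Complex.log (1 + z / (k + 1))

/-- The logarithm of `Γ` on `re z > 0`. -/
def logGam (z : ℂ) : ℂ := -Complex.log z + ∑' k : ℕ, gammaStep k z

theorem norm_log_one_add_sub_le {w : ℂ} (hw : 0 ≤ w.re) :
    ‖Complex.log (1 + w) - w‖ ≤ ‖w‖ ^ 2 := by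
  obtain ⟨S, hS⟩ : ∃ S : Set ℂ, S = {u | 0 ≤ u.re} ∩ Metric.closedBall 0 ‖w‖ := ⟨_, rfl⟩
  have hconv : Convex ℝ S := hS ▸ (convex_halfSpace_re_ge 0).inter (convex_closedBall _ _)
  have hd : ∀ u ∈ S, HasDerivWithinAt (fun u => Complex.log (1 + u) - u) ((1 + u)⁻¹ - 1) S u := by
    intro u hu
    rw [hS] at hu
    have h1 : 0 < (1 + u).re := by
      have := hu.1
      simp only [Set.mem_ofPred_eq] at this
      simp
      linarith
    exact ((((hasDerivAt_id' u).const_add 1).clog (Or.inl h1)).sub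
      (hasDerivAt_id' u)).congr_deriv (by rw [one_div]) |>.hasDerivWithinAt
  have hb : ∀ u ∈ S, ‖(1 + u)⁻¹ - 1‖ ≤ ‖w‖ := by
    intro u hu
    rw [hS] at hu
    have h1 : 1 ≤ ‖1 + u‖ := by
      refine le_trans ?_ (re_le_norm _)
      have := hu.1
      simp only [Set.mem_ofPred_eq] at this
      simp
      linarith
    have h0 : 1 + u ≠ 0 := norm_pos_iff.1 (by linarith)
    rw [show (1 + u)⁻¹ - 1 = -u / (1 + u) by field_simp; ring, norm_div, norm_neg]
    exact (div_le_self (norm_nonneg _) h1).trans (mem_closedBall_zero_iff.1 hu.2)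
  have h := hconv.norm_image_sub_le_of_norm_hasDerivWithin_le hd hb
    (show (0 : ℂ) ∈ S by rw [hS]; exact ⟨by simp, by simp⟩)
    (show w ∈ S by rw [hS]; exact ⟨hw, by simp⟩)
  simpa [sq] using h

theorem norm_gammaStep_le (k : ℕ) {z : ℂ} (hz : 0 ≤ z.re) :
    ‖gammaStep k z‖ ≤ (‖z‖ + ‖z‖ ^ 2) * (1 / ((k : ℝ) + 1) ^ 2) := by
  have hk : (0 : ℝ) < (k : ℝ) + 1 := by positivity
  obtain ⟨x, hx⟩ : ∃ x : ℝ, x = 1 / ((k : ℝ) + 1) := ⟨_, rfl⟩
  have hx0 : 0 ≤ x := by rw [hx]; positivity
  have hxc : (x : ℂ) = 1 / ((k : ℂ) + 1) := by rw [hx]; push_cast; ring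
  have e : gammaStep k z = z * (Complex.log (1 + (x : ℂ)) - x) -
      (Complex.log (1 + z * x) - z * x) := by
    rw [gammaStep, ← hx, Complex.ofReal_log (by linarith), hxc]
    push_cast
    rw [mul_one_div, hxc]
    ring
  rw [e]
  refine (norm_sub_le _ _).trans ?_
  have h1 := norm_log_one_add_sub_le (w := (x : ℂ)) (by simpa using hx0)
  have h2 := norm_log_one_add_sub_le (w := z * x) (by simp; positivity)
  rw [norm_mul z (x : ℂ), Complex.norm_real, Real.norm_of_nonneg hx0] at h2
  rw [Complex.norm_real, Real.norm_of_nonneg hx0] at h1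
  rw [norm_mul z (Complex.log (1 + (x : ℂ)) - x)]
  refine (add_le_add (mul_le_mul_of_nonneg_left h1 (norm_nonneg z)) h2).trans (le_of_eq ?_)
  rw [hx, mul_pow, div_pow, one_pow]
  ring

theorem summable_gammaStep {z : ℂ} (hz : 0 ≤ z.re) : Summable fun k => gammaStep k z := by
  have h : Summable fun k : ℕ => 1 / ((k : ℝ) + 1) ^ 2 := by
    have := (summable_nat_add_iff (f := fun n : ℕ => 1 / (n : ℝ) ^ 2) 1).2
      (Real.summable_one_div_nat_pow.2 one_lt_two)
    simpa using this
  exact Summable.of_norm_bounded (h.mul_left (‖z‖ + ‖z‖ ^ 2)) fun k => norm_gammaStep_le k hz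

theorem differentiableAt_logGam {z : ℂ} (hz : 0 < z.re) : DifferentiableAt ℂ logGam z := by
  obtain ⟨R, hR⟩ : ∃ R, R = ‖z‖ + 1 := ⟨_, rfl⟩
  obtain ⟨U, hU⟩ : ∃ U : Set ℂ, U = {u | 0 < u.re} ∩ Metric.ball 0 R := ⟨_, rfl⟩
  have hUo : IsOpen U := hU ▸ (isOpen_lt continuous_const continuous_re).inter Metric.isOpen_ball
  have hzU : z ∈ U := by
    rw [hU]
    exact ⟨hz, by rw [mem_ball_zero_iff]; linarith⟩
  have hs : Summable fun k : ℕ => 1 / ((k : ℝ) + 1) ^ 2 := by
    have := (summable_nat_add_iff (f := fun n : ℕ => 1 / (n : ℝ) ^ 2) 1).2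
      (Real.summable_one_div_nat_pow.2 one_lt_two)
    simpa using this
  have hd : ∀ k, DifferentiableOn ℂ (gammaStep k) U := fun k u hu => by
    rw [hU] at hu
    have h1 : 0 < u.re := hu.1
    have h2 : 0 < (1 + u / ((k : ℂ) + 1)).re := by
      have : (u / ((k : ℂ) + 1)).re = u.re / ((k : ℝ) + 1) := by
        rw [show ((k : ℂ) + 1) = (((k : ℝ) + 1 : ℝ) : ℂ) by push_cast; ring, div_ofReal_re]
      rw [add_re, one_re, this]
      have : 0 < u.re / ((k : ℝ) + 1) := by positivity
      linarith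
    have h3 : DifferentiableAt ℂ (fun v : ℂ => 1 + v / ((k : ℂ) + 1)) u := by fun_prop
    exact ((differentiableAt_id.mul_const _).sub (h3.clog (Or.inl h2))).differentiableWithinAt
  have hsum := differentiableOn_tsum_of_summable_norm (hs.mul_left (R + R ^ 2)) hd hUo
    fun k u hu => by
      rw [hU] at hu
      have hu2 : ‖u‖ ≤ R := (mem_ball_zero_iff.1 hu.2).le
      refine (norm_gammaStep_le k (le_of_lt hu.1)).trans ?_
      gcongr
  exact ((differentiableAt_id.clog (Or.inl hz)).neg).add
    (hsum.differentiableAt (hUo.mem_nhds hzU))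

/-- The partial sums. -/
def gammaPartial (n : ℕ) (z : ℂ) : ℂ :=
  -Complex.log z + ∑ k ∈ Finset.range n, gammaStep k z

theorem tendsto_gammaPartial {z : ℂ} (hz : 0 ≤ z.re) :
    Tendsto (fun n => gammaPartial n z) atTop (𝓝 (logGam z)) :=
  (summable_gammaStep hz).hasSum.tendsto_sum_nat.const_add _

theorem exp_gammaPartial (n : ℕ) {z : ℂ} (hz : 0 < z.re) :
    Complex.exp (gammaPartial n z) = Complex.exp (z * ((Real.log (n + 1) : ℝ) : ℂ)) * n.factorial /
      ∏ j ∈ Finset.range (n + 1), (z + j) := by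
  have hz0 : z ≠ 0 := fun h => by simp [h] at hz
  induction n with
  | zero => simp [gammaPartial, Complex.exp_neg, Complex.exp_log hz0]
  | succ m ih =>
    have hne : ∀ j : ℕ, z + (j : ℂ) ≠ 0 := fun j h => by
      have := congrArg Complex.re h
      simp at this
      linarith [(Nat.cast_nonneg j : (0 : ℝ) ≤ j)]
    have hm : ((m : ℂ) + 1) ≠ 0 := Nat.cast_add_one_ne_zero m
    have h1 : 1 + z / ((m : ℂ) + 1) = (z + ((m + 1 : ℕ) : ℂ)) / ((m : ℂ) + 1) := by
      field_simp
      push_cast
      ring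
    have hP : ∏ j ∈ Finset.range (m + 1), (z + (j : ℂ)) ≠ 0 :=
      Finset.prod_ne_zero_iff.2 fun j _ => hne j
    have hlog : Real.log (((m + 1 : ℕ) : ℝ) + 1) =
        Real.log ((m : ℝ) + 1) + Real.log (1 + 1 / ((m : ℝ) + 1)) := by
      rw [← Real.log_mul (by positivity) (by positivity)]
      congr 1
      push_cast
      field_simp
    rw [show gammaPartial (m + 1) z = gammaPartial m z + gammaStep m z by
      simp [gammaPartial, Finset.sum_range_succ, add_assoc], Complex.exp_add, ih, gammaStep,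
      Complex.exp_sub, Complex.exp_log (by rw [h1]; exact div_ne_zero (hne _) hm), h1,
      Finset.prod_range_succ (fun j : ℕ => z + (j : ℂ)) (m + 1), Nat.factorial_succ, hlog]
    push_cast
    rw [mul_add, Complex.exp_add]
    have h2 := hne (m + 1)
    push_cast at h2
    field_simp

theorem exp_logGam {z : ℂ} (hz : 0 < z.re) : Complex.exp (logGam z) = Complex.Gamma z := by
  have hz0 : z ≠ 0 := fun h => by simp [h] at hz
  have h1 : Tendsto (fun n : ℕ => Complex.exp (gammaPartial n z) *
      Complex.exp (z * ((Real.log n - Real.log (n + 1) : ℝ) : ℂ))) atTop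
      (𝓝 (Complex.exp (logGam z) * 1)) := by
    refine ((Complex.continuous_exp.tendsto _).comp (tendsto_gammaPartial hz.le)).mul ?_
    have h2 : Tendsto (fun n : ℕ => Real.log n - Real.log (n + 1)) atTop (𝓝 0) := by
      have h3 : Tendsto (fun n : ℕ => -Real.log (1 + 1 / (n : ℝ))) atTop (𝓝 0) := by
        have h4 := ((tendsto_one_div_atTop_nhds_zero_nat (𝕜 := ℝ)).const_add 1)
        rw [add_zero] at h4
        simpa using ((Real.continuousAt_log one_ne_zero).tendsto.comp h4).neg
      refine h3.congr' ((eventually_ge_atTop 1).mono fun n hn => ?_)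
      have hn0 : (0 : ℝ) < n := Nat.cast_pos.2 hn
      show -Real.log (1 + 1 / (n : ℝ)) = _
      rw [show (1 : ℝ) + 1 / n = (n + 1) / n by field_simp,
        Real.log_div (by positivity) hn0.ne']
      ring
    have h5 := ((Complex.continuous_ofReal.tendsto 0).comp h2).const_mul z
    rw [Complex.ofReal_zero, mul_zero] at h5
    have h6 := (Complex.continuous_exp.tendsto 0).comp h5
    rw [Complex.exp_zero] at h6
    exact h6
  rw [mul_one] at h1
  refine tendsto_nhds_unique (h1.congr' ((eventually_ge_atTop 1).mono fun n hn => ?_))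
    (Complex.GammaSeq_tendsto_Gamma z)
  have hn0 : (0 : ℝ) < n := Nat.cast_pos.2 hn
  show Complex.exp (gammaPartial n z) *
    Complex.exp (z * ((Real.log n - Real.log (n + 1) : ℝ) : ℂ)) = Complex.GammaSeq z n
  rw [exp_gammaPartial n hz, Complex.GammaSeq, cpow_def_of_ne_zero (Nat.cast_ne_zero.2 (by omega)),
    ← Complex.natCast_log, div_mul_eq_mul_div, mul_right_comm, ← Complex.exp_add]
  congr 2
  push_cast
  ring_nf

theorem hasDerivAt_logGam {z : ℂ} (hz : 0 < z.re) :
    HasDerivAt logGam (deriv Complex.Gamma z / Complex.Gamma z) z := by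
  have hd := (differentiableAt_logGam hz).hasDerivAt
  have he : Complex.Gamma =ᶠ[𝓝 z] fun u => Complex.exp (logGam u) := by
    filter_upwards [(isOpen_lt continuous_const continuous_re).mem_nhds hz] with u hu
    exact (exp_logGam hu).symm
  rw [he.deriv_eq, hd.cexp.deriv, ← exp_logGam hz,
    mul_div_cancel_left₀ _ (Complex.exp_ne_zero _)]
  exact hd

theorem arg_eq_arctan {z : ℂ} (hz : 0 < z.re) : z.arg = Real.arctan (z.im / z.re) := by
  rw [← Complex.tan_arg, Real.arctan_tan]
  · exact (abs_lt.1 (Complex.abs_arg_lt_pi_div_two_iff.2 (Or.inl hz))).1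
  · exact (abs_lt.1 (Complex.abs_arg_lt_pi_div_two_iff.2 (Or.inl hz))).2

theorem im_gammaPartial (n : ℕ) {z : ℂ} (hz : 0 < z.re) :
    (gammaPartial n z).im = z.im * Real.log (n + 1) -
      ∑ j ∈ Finset.range (n + 1), Real.arctan (z.im / (z.re + j)) := by
  induction n with
  | zero => simp [gammaPartial, Complex.log_im, arg_eq_arctan hz]
  | succ m ih =>
    have hm : (0 : ℝ) < (m : ℝ) + 1 := by positivity
    have e1 : (1 + z / ((m : ℂ) + 1)).re = (z.re + ((m : ℝ) + 1)) / ((m : ℝ) + 1) := by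
      rw [show ((m : ℂ) + 1) = (((m : ℝ) + 1 : ℝ) : ℂ) by push_cast; ring, add_re, div_ofReal_re,
        one_re]
      field_simp
      ring
    have e2 : (1 + z / ((m : ℂ) + 1)).im = z.im / ((m : ℝ) + 1) := by
      rw [show ((m : ℂ) + 1) = (((m : ℝ) + 1 : ℝ) : ℂ) by push_cast; ring, add_im, div_ofReal_im,
        one_im, zero_add]
    have hp : 0 < (1 + z / ((m : ℂ) + 1)).re := by rw [e1]; positivity
    have hlog : Real.log (((m + 1 : ℕ) : ℝ) + 1) =
        Real.log ((m : ℝ) + 1) + Real.log (1 + 1 / ((m : ℝ) + 1)) := by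
      rw [← Real.log_mul (by positivity) (by positivity)]
      congr 1
      push_cast
      field_simp
    rw [show gammaPartial (m + 1) z = gammaPartial m z + gammaStep m z by
      simp [gammaPartial, Finset.sum_range_succ, add_assoc], add_im, ih, gammaStep, sub_im,
      Complex.log_im, arg_eq_arctan hp, e1, e2,
      Finset.sum_range_succ (fun j : ℕ => Real.arctan (z.im / (z.re + j))) (m + 1), hlog]
    simp only [mul_im, ofReal_re, ofReal_im, mul_zero, zero_add]
    rw [div_div_div_cancel_right₀ hm.ne']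
    push_cast
    ring

/-- The antiderivative of `arctan (t / u)`. -/
def argPrimitive (t u : ℝ) : ℝ := u * Real.arctan (t / u) + t / 2 * Real.log (u ^ 2 + t ^ 2)

theorem hasDerivAt_argPrimitive {t u : ℝ} (hu : 0 < u) :
    HasDerivAt (argPrimitive t) (Real.arctan (t / u)) u := by
  have h1 : HasDerivAt (fun v : ℝ => Real.arctan (t / v))
      (1 / (1 + (t / u) ^ 2) * (-t / u ^ 2)) u := by
    refine (Real.hasDerivAt_arctan _).comp u ?_
    refine ((hasDerivAt_id' u).inv hu.ne').const_mul t |>.congr_deriv ?_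
    field_simp
  have h2 : HasDerivAt (fun v : ℝ => Real.log (v ^ 2 + t ^ 2)) (2 * u / (u ^ 2 + t ^ 2)) u :=
    (((hasDerivAt_pow 2 u).add_const (t ^ 2)).log (by positivity)).congr_deriv (by simp)
  refine (((hasDerivAt_id' u).mul h1).add (h2.const_mul (t / 2))).congr_deriv ?_
  field_simp
  ring

theorem sum_arctan_bounds {σ t : ℝ} (hσ : 0 < σ) (ht : 0 ≤ t) (n : ℕ) :
    argPrimitive t (σ + n) - argPrimitive t σ ≤
        ∑ j ∈ Finset.range (n + 1), Real.arctan (t / (σ + j)) ∧
      ∑ j ∈ Finset.range (n + 1), Real.arctan (t / (σ + j)) ≤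
        argPrimitive t (σ + n) - argPrimitive t σ + Real.pi / 2 := by
  have hanti : AntitoneOn (fun u : ℝ => Real.arctan (t / u)) (Set.Icc σ (σ + n)) :=
    fun u hu v hv huv => Real.arctan_mono
      (div_le_div_of_nonneg_left ht (by linarith [hu.1]) huv)
  have hI : ∫ u in σ..σ + n, Real.arctan (t / u) =
      argPrimitive t (σ + n) - argPrimitive t σ := by
    refine intervalIntegral.integral_eq_sub_of_hasDerivAt (fun u hu => ?_) ?_
    · rw [Set.uIcc_of_le (by simp)] at hu
      exact hasDerivAt_argPrimitive (by linarith [hu.1])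
    · exact (hanti.mono (by rw [Set.uIcc_of_le (by simp)])).intervalIntegrable
  constructor
  · rw [← hI, Finset.sum_range_succ]
    have h1 := hanti.integral_le_sum
    have h2 : 0 ≤ Real.arctan (t / (σ + n)) := Real.arctan_nonneg.2 (by positivity)
    linarith
  · rw [← hI, Finset.sum_range_succ']
    have h1 := hanti.sum_le_integral
    have h2 := Real.arctan_lt_pi_div_two (t / (σ + ((0 : ℕ) : ℝ)))
    push_cast at h1 h2 ⊢
    linarith

theorem tendsto_argPrimitive {σ t : ℝ} :
    Tendsto (fun n : ℕ => t * Real.log (n + 1) - argPrimitive t (σ + n)) atTop (𝓝 (-t)) := by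
  have hu : Tendsto (fun n : ℕ => σ + (n : ℝ)) atTop atTop :=
    tendsto_atTop_add_const_left _ _ tendsto_natCast_atTop_atTop
  have hd : Tendsto (fun n : ℕ => (σ + n) * Real.arctan (t / (σ + n))) atTop (𝓝 t) := by
    have h1 : Tendsto (fun u : ℝ => u * Real.arctan (t / u)) atTop (𝓝 t) := by
      have hder : HasDerivAt (fun x : ℝ => Real.arctan (t * x)) t 0 := by
        have := ((hasDerivAt_id' (0 : ℝ)).const_mul t).arctan
        simpa using this
      have h2 := (hasDerivAt_iff_tendsto_slope.1 hder).comp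
        (show Tendsto (fun u : ℝ => u⁻¹) atTop (𝓝[≠] 0) from
          tendsto_nhdsWithin_mono_right (fun x hx => ne_of_gt hx) tendsto_inv_atTop_nhdsGT_zero)
      refine h2.congr fun u => ?_
      simp [slope, div_eq_mul_inv]
    exact h1.comp hu
  have hl : Tendsto (fun n : ℕ => Real.log (((n : ℝ) + 1) ^ 2 / ((σ + n) ^ 2 + t ^ 2))) atTop
      (𝓝 0) := by
    have h1 : Tendsto (fun n : ℕ => (((n : ℝ) + 1) ^ 2 / ((σ + n) ^ 2 + t ^ 2))) atTop (𝓝 1) := by
      have hi : Tendsto (fun n : ℕ => (1 : ℝ) / n) atTop (𝓝 0) :=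
        tendsto_one_div_atTop_nhds_zero_nat
      have h2 : Tendsto (fun n : ℕ => (1 + 1 / (n : ℝ)) ^ 2 /
          ((1 + σ * (1 / (n : ℝ))) ^ 2 + t ^ 2 * (1 / (n : ℝ)) ^ 2)) atTop
          (𝓝 ((1 + 0) ^ 2 / ((1 + σ * 0) ^ 2 + t ^ 2 * 0 ^ 2))) :=
        ((hi.const_add 1).pow 2).div ((((hi.const_mul σ).const_add 1).pow 2).add
          ((hi.pow 2).const_mul (t ^ 2))) (by norm_num)
      norm_num at h2
      refine h2.congr' ((eventually_ge_atTop 1).mono fun n hn => ?_)
      have hn0 : (0 : ℝ) < n := Nat.cast_pos.2 hn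
      field_simp
      ring
    have := ((Real.continuousAt_log one_ne_zero).tendsto).comp h1
    rw [Real.log_one] at this
    exact this
  have hev : ∀ᶠ n : ℕ in atTop, 0 < (σ + (n : ℝ)) := hu.eventually (eventually_gt_atTop 0)
  have h3 := (hl.const_mul (t / 2)).sub hd
  rw [mul_zero, zero_sub] at h3
  refine h3.congr' (hev.mono fun n hn => ?_)
  rw [Real.log_div (by positivity) (by positivity), Real.log_pow]
  unfold argPrimitive
  push_cast
  ring

theorem logGam_conj_im {z : ℂ} (hz : 0 < z.re) :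
    (logGam ((starRingEnd ℂ) z)).im = -(logGam z).im := by
  have hz' : 0 < ((starRingEnd ℂ) z).re := by simpa using hz
  refine tendsto_nhds_unique ((Complex.continuous_im.tendsto _).comp
    (tendsto_gammaPartial hz'.le)) ?_
  refine (((Complex.continuous_im.tendsto _).comp (tendsto_gammaPartial hz.le)).neg).congr
    fun n => ?_
  simp only [Function.comp_apply, im_gammaPartial n hz, im_gammaPartial n hz', conj_re, conj_im,
    neg_div, Real.arctan_neg, Finset.sum_neg_distrib]
  ring

/-- **Stirling's formula for `arg Γ`.** -/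
theorem abs_im_logGam_sub_le {σ t : ℝ} (hσ : 0 < σ) (hσ1 : σ ≤ 1) (ht : 1 ≤ |t|) :
    |(logGam ((σ : ℂ) + t * I)).im - (t * Real.log |t| - t)| ≤ 5 := by
  have key : ∀ t : ℝ, 1 ≤ t → |(logGam ((σ : ℂ) + t * I)).im - (t * Real.log t - t)| ≤ 5 := by
    intro t ht
    have hre : ((σ : ℂ) + t * I).re = σ := by simp
    have him : ((σ : ℂ) + t * I).im = t := by simp
    have hlim := (Complex.continuous_im.tendsto _).comp
      (tendsto_gammaPartial (z := (σ : ℂ) + t * I) (by rw [hre]; exact hσ.le))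
    have hA := (tendsto_argPrimitive (σ := σ) (t := t)).add_const (argPrimitive t σ)
    have hb : ∀ n : ℕ, (gammaPartial n ((σ : ℂ) + t * I)).im ≤
          t * Real.log (n + 1) - argPrimitive t (σ + n) + argPrimitive t σ ∧
        t * Real.log (n + 1) - argPrimitive t (σ + n) + argPrimitive t σ - Real.pi / 2 ≤
          (gammaPartial n ((σ : ℂ) + t * I)).im := fun n => by
      rw [im_gammaPartial n (by rw [hre]; exact hσ), hre, him]
      have := sum_arctan_bounds hσ (show 0 ≤ t by linarith) n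
      constructor <;> linarith
    have hup := le_of_tendsto_of_tendsto' hlim hA fun n => (hb n).1
    have hlo := le_of_tendsto_of_tendsto' (hA.sub_const (Real.pi / 2)) hlim fun n => (hb n).2
    have hat : 0 ≤ Real.arctan (t / σ) := Real.arctan_nonneg.2 (by positivity)
    have hat2 : σ * Real.arctan (t / σ) ≤ 2 := by
      have := Real.arctan_lt_pi_div_two (t / σ)
      nlinarith [Real.pi_le_four]
    have hlog : 0 ≤ t / 2 * Real.log (σ ^ 2 + t ^ 2) - t * Real.log t ∧
        t / 2 * Real.log (σ ^ 2 + t ^ 2) - t * Real.log t ≤ 1 := by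
      have e : t / 2 * Real.log (σ ^ 2 + t ^ 2) - t * Real.log t =
          t / 2 * Real.log ((σ ^ 2 + t ^ 2) / t ^ 2) := by
        rw [Real.log_div (by positivity) (by positivity), Real.log_pow]
        push_cast
        ring
      have h1 : 1 ≤ (σ ^ 2 + t ^ 2) / t ^ 2 := by
        rw [one_le_div (by positivity)]
        nlinarith
      rw [e]
      refine ⟨mul_nonneg (by linarith) (Real.log_nonneg h1), ?_⟩
      refine (mul_le_mul_of_nonneg_left (Real.log_le_sub_one_of_pos (by linarith))
        (show 0 ≤ t / 2 by linarith)).trans ?_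
      rw [show t / 2 * ((σ ^ 2 + t ^ 2) / t ^ 2 - 1) = σ ^ 2 / (2 * t) by field_simp; ring,
        div_le_one (by linarith)]
      nlinarith
    have hH : argPrimitive t σ = σ * Real.arctan (t / σ) + t / 2 * Real.log (σ ^ 2 + t ^ 2) := rfl
    have := mul_nonneg hσ.le hat
    rw [abs_le]
    constructor <;> linarith [Real.pi_le_four, hlog.1, hlog.2]
  rcases le_total 0 t with h | h
  · rw [abs_of_nonneg h] at ht ⊢
    exact key t ht
  · rw [abs_of_nonpos h] at ht ⊢
    have h1 := key (-t) ht
    rw [show ((σ : ℂ) + ((-t : ℝ) : ℂ) * I) = (starRingEnd ℂ) ((σ : ℂ) + t * I) by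
      (apply Complex.ext <;> simp), logGam_conj_im (by simpa using hσ)] at h1
    rw [← abs_neg]
    convert h1 using 2
    ring

/-- A logarithm of `Gammaℝ`. -/
def logGammaReal (s : ℂ) : ℂ := -(s / 2) * ((Real.log Real.pi : ℝ) : ℂ) + logGam (s / 2)

theorem hasDerivAt_logGammaReal {s : ℂ} (hs : 0 < s.re) :
    HasDerivAt logGammaReal (deriv Gammaℝ s / Gammaℝ s) s := by
  have h2 : 0 < (s / 2).re := by simpa using hs
  have hexp : ∀ u : ℂ, 0 < u.re → Gammaℝ u = Complex.exp (logGammaReal u) := fun u hu => by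
    rw [Gammaℝ_def, logGammaReal, Complex.exp_add, exp_logGam (by simpa using hu),
      cpow_def_of_ne_zero (ofReal_ne_zero.2 Real.pi_ne_zero), ← ofReal_log Real.pi_pos.le]
    congr 2
    ring
  have hd : DifferentiableAt ℂ logGammaReal s :=
    ((show DifferentiableAt ℂ (fun u : ℂ => -(u / 2) * ((Real.log Real.pi : ℝ) : ℂ)) s by
      fun_prop)).add (DifferentiableAt.fun_comp' (g := logGam)
        (f := fun u : ℂ => u / 2) s (differentiableAt_logGam h2) (by fun_prop))
  have he : Gammaℝ =ᶠ[𝓝 s] fun u => Complex.exp (logGammaReal u) := by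
    filter_upwards [(isOpen_lt continuous_const continuous_re).mem_nhds hs] with u hu
    exact hexp u hu
  rw [he.deriv_eq, hd.hasDerivAt.cexp.deriv, hexp s hs,
    mul_div_cancel_left₀ _ (Complex.exp_ne_zero _)]
  exact hd.hasDerivAt

theorem im_logGammaReal (s : ℂ) :
    (logGammaReal s).im = -(s.im / 2) * Real.log Real.pi + (logGam (s / 2)).im := by
  rw [logGammaReal, add_im, mul_im, ofReal_re, ofReal_im, neg_im, div_ofNat_im, mul_zero, zero_add]

end FA.RiemannMangoldt

end
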