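import Fermat.Agent.RiemannMangoldt.Xi
import Fermat.Agent.RiemannMangoldt.ArgGamma
import Mathlib.Analysis.Complex.CauchyIntegral
import Mathlib.MeasureTheory.Integral.IntervalIntegral.FundThmCalculus

/-!
# The argument principle for `ξ` and the formula of Riemann and von Mangoldt

The change of argument of `ξ` round `[-1, 2] × [0, T]` counts the zeros. By the functional
equation it is that of `ξ` on the lines `re s = 2` and `im s = ± T`, `1/2 ≤ re s ≤ 2`, where
Stirling's formula gives the main term and the local expansion of `ζ'/ζ` gives `O (log T)`.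
-/

set_option autoImplicit false

noncomputable section

namespace FA.RiemannMangoldt

open Complex Filter Topology MeasureTheory Set FA.ZeroFree

/-- The imaginary part of the integral round `[-1, 2] × [0, T]`. -/
def edgeSum (F : ℂ → ℂ) (T : ℝ) : ℝ :=
  (∫ u in (-1 : ℝ)..2, F (u : ℂ)).im - (∫ u in (-1 : ℝ)..2, F ((u : ℂ) + T * I)).im +
    (∫ y in (0 : ℝ)..T, F (((2 : ℝ) : ℂ) + y * I)).re -
    (∫ y in (0 : ℝ)..T, F (((-1 : ℝ) : ℂ) + y * I)).re

/-- A function is continuous on the four edges. -/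
def EdgeContinuous (F : ℂ → ℂ) (T : ℝ) : Prop :=
  ContinuousOn (fun u : ℝ => F (u : ℂ)) (uIcc (-1) 2) ∧
    ContinuousOn (fun u : ℝ => F ((u : ℂ) + T * I)) (uIcc (-1) 2) ∧
    ContinuousOn (fun y : ℝ => F (((2 : ℝ) : ℂ) + y * I)) (uIcc 0 T) ∧
    ContinuousOn (fun y : ℝ => F (((-1 : ℝ) : ℂ) + y * I)) (uIcc 0 T)

variable {F G : ℂ → ℂ} {T : ℝ}

theorem edgeSum_add (hF : EdgeContinuous F T) (hG : EdgeContinuous G T) :
    edgeSum (fun s => F s + G s) T = edgeSum F T + edgeSum G T := by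
  obtain ⟨a1, a2, a3, a4⟩ := hF
  obtain ⟨b1, b2, b3, b4⟩ := hG
  simp only [edgeSum, intervalIntegral.integral_add a1.intervalIntegrable b1.intervalIntegrable,
    intervalIntegral.integral_add a2.intervalIntegrable b2.intervalIntegrable,
    intervalIntegral.integral_add a3.intervalIntegrable b3.intervalIntegrable,
    intervalIntegral.integral_add a4.intervalIntegrable b4.intervalIntegrable, add_im, add_re]
  ring

theorem EdgeContinuous.add (hF : EdgeContinuous F T) (hG : EdgeContinuous G T) :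
    EdgeContinuous (fun s => F s + G s) T :=
  ⟨hF.1.add hG.1, hF.2.1.add hG.2.1, hF.2.2.1.add hG.2.2.1, hF.2.2.2.add hG.2.2.2⟩

/-- The integral of `1 / (u + w)`. -/
theorem integral_inv_horizontal {w : ℂ} (hw : w.im ≠ 0) (a b : ℝ) :
    (∫ u in a..b, ((u : ℂ) + w)⁻¹) = Complex.log ((b : ℂ) + w) - Complex.log ((a : ℂ) + w) := by
  refine intervalIntegral.integral_eq_sub_of_hasDerivAt
    (f := fun u : ℝ => Complex.log ((u : ℂ) + w)) (fun u _ => ?_) ?_
  · refine (((hasDerivAt_id' (u : ℂ)).add_const w).comp_ofReal.clog_real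
      (Or.inr (by simpa using hw))).congr_deriv ?_
    rw [one_div]
  · refine (ContinuousOn.inv₀ (by fun_prop) fun u _ h => hw ?_).intervalIntegrable
    simpa using congrArg Complex.im h

/-- The real part of the integral of `1 / (w + i y)`. -/
theorem re_integral_inv_vertical {w : ℂ} (hw : w.re ≠ 0) (a b : ℝ) :
    (∫ y in a..b, (w + (y : ℂ) * I)⁻¹).re =
      if 0 < w.re then (w + (b : ℂ) * I).arg - (w + (a : ℂ) * I).arg
      else (-(w + (b : ℂ) * I)).arg - (-(w + (a : ℂ) * I)).arg := by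
  have hcont : ContinuousOn (fun y : ℝ => I * (w + (y : ℂ) * I)⁻¹) (uIcc a b) :=
    continuousOn_const.mul (ContinuousOn.inv₀ (by fun_prop) fun y _ h => hw (by
      simpa using congrArg Complex.re h))
  have hd : ∀ y : ℝ, HasDerivAt (fun v : ℝ => w + (v : ℂ) * I) I y := fun y => by
    simpa using (((hasDerivAt_id' (y : ℂ)).mul_const I).const_add w).comp_ofReal
  have hmul : (∫ y in a..b, I * (w + (y : ℂ) * I)⁻¹) = I * ∫ y in a..b, (w + (y : ℂ) * I)⁻¹ :=
    intervalIntegral.integral_const_mul _ _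
  split_ifs with hpos
  · have h := intervalIntegral.integral_eq_sub_of_hasDerivAt
      (f := fun v : ℝ => Complex.log (w + (v : ℂ) * I)) (fun y _ =>
        ((hd y).clog_real (Or.inl (by simpa using hpos))).congr_deriv (div_eq_mul_inv _ _))
      hcont.intervalIntegrable
    rw [hmul] at h
    have := congrArg Complex.im h
    simpa [Complex.log_im] using this
  · have hneg : w.re < 0 := lt_of_le_of_ne (not_lt.1 hpos) hw
    have h := intervalIntegral.integral_eq_sub_of_hasDerivAt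
      (f := fun v : ℝ => Complex.log (-(w + (v : ℂ) * I))) (fun y _ =>
        ((hd y).neg.clog_real (Or.inl (by simpa using hneg))).congr_deriv
          (by rw [Pi.neg_apply, neg_div_neg_eq, div_eq_mul_inv]))
      hcont.intervalIntegrable
    rw [hmul] at h
    have := congrArg Complex.im h
    simpa [Complex.log_im] using this

/-- The winding number of the rectangle. -/
theorem edgeSum_inv {ρ : ℂ} (h0 : 0 < ρ.re) (h1 : ρ.re < 1) (hi : ρ.im ≠ 0) (hiT : ρ.im ≠ T) :
    edgeSum (fun s => (s - ρ)⁻¹) T =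
      (if ρ.im < T then Real.pi else -Real.pi) + if 0 < ρ.im then Real.pi else -Real.pi := by
  have e : ∀ a b : ℂ, a + b - ρ = a + (b - ρ) := fun a b => by ring
  have eb : (∫ u in (-1 : ℝ)..2, ((u : ℂ) - ρ)⁻¹) =
      Complex.log (((2 : ℝ) : ℂ) + -ρ) - Complex.log (((-1 : ℝ) : ℂ) + -ρ) := by
    simp only [sub_eq_add_neg]
    exact integral_inv_horizontal (by simpa using hi) _ _
  have et : (∫ u in (-1 : ℝ)..2, ((u : ℂ) + (T : ℂ) * I - ρ)⁻¹) =
      Complex.log (((2 : ℝ) : ℂ) + ((T : ℂ) * I - ρ)) -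
        Complex.log (((-1 : ℝ) : ℂ) + ((T : ℂ) * I - ρ)) := by
    simp only [e]
    exact integral_inv_horizontal (by simpa [sub_eq_zero] using Ne.symm hiT) _ _
  have er := re_integral_inv_vertical (w := ((2 : ℝ) : ℂ) - ρ) (by simp; linarith) 0 T
  have el := re_integral_inv_vertical (w := ((-1 : ℝ) : ℂ) - ρ) (by simp; linarith) 0 T
  rw [if_pos (by simp; linarith)] at er
  rw [if_neg (by simp; linarith)] at el
  simp only [edgeSum, eb, et, Complex.sub_im, Complex.log_im]
  simp only [show ∀ y : ℝ, ((2 : ℝ) : ℂ) + (y : ℂ) * I - ρ = ((2 : ℝ) : ℂ) - ρ + (y : ℂ) * I from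
    fun y => by ring, show ∀ y : ℝ, ((-1 : ℝ) : ℂ) + (y : ℂ) * I - ρ =
      ((-1 : ℝ) : ℂ) - ρ + (y : ℂ) * I from fun y => by ring, er, el]
  rw [show ((2 : ℝ) : ℂ) + -ρ = ((2 : ℝ) : ℂ) - ρ + ((0 : ℝ) : ℂ) * I by simp; ring,
    show ((2 : ℝ) : ℂ) + ((T : ℂ) * I - ρ) = ((2 : ℝ) : ℂ) - ρ + (T : ℂ) * I by ring,
    show ((-1 : ℝ) : ℂ) + -ρ = ((-1 : ℝ) : ℂ) - ρ + ((0 : ℝ) : ℂ) * I by simp; ring,
    show ((-1 : ℝ) : ℂ) + ((T : ℂ) * I - ρ) = ((-1 : ℝ) : ℂ) - ρ + (T : ℂ) * I by ring]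
  have hA : (((-1 : ℝ) : ℂ) - ρ + (T : ℂ) * I).im = T - ρ.im := by simp; ring
  have hB : (((-1 : ℝ) : ℂ) - ρ + ((0 : ℝ) : ℂ) * I).im = -ρ.im := by simp
  generalize ((-1 : ℝ) : ℂ) - ρ + (T : ℂ) * I = A at hA ⊢
  generalize ((-1 : ℝ) : ℂ) - ρ + ((0 : ℝ) : ℂ) * I = B at hB ⊢
  split_ifs with hT h
  · rw [Complex.arg_neg_eq_arg_sub_pi_of_im_pos (show 0 < A.im by linarith),
      Complex.arg_neg_eq_arg_add_pi_of_im_neg (show B.im < 0 by linarith)]
    ring
  · rw [Complex.arg_neg_eq_arg_sub_pi_of_im_pos (show 0 < A.im by linarith),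
      Complex.arg_neg_eq_arg_sub_pi_of_im_pos
        (show 0 < B.im by linarith [lt_of_le_of_ne (not_lt.1 h) hi])]
    ring
  · rename_i h
    rw [Complex.arg_neg_eq_arg_add_pi_of_im_neg
        (show A.im < 0 by linarith [lt_of_le_of_ne (not_lt.1 hT) (Ne.symm hiT)]),
      Complex.arg_neg_eq_arg_add_pi_of_im_neg (show B.im < 0 by linarith)]
    ring
  · rename_i h
    rw [Complex.arg_neg_eq_arg_add_pi_of_im_neg
        (show A.im < 0 by linarith [lt_of_le_of_ne (not_lt.1 hT) (Ne.symm hiT)]),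
      Complex.arg_neg_eq_arg_sub_pi_of_im_pos
        (show 0 < B.im by linarith [lt_of_le_of_ne (not_lt.1 h) hi])]
    ring

/-- A zero-free differentiable function contributes nothing. -/
theorem edgeSum_eq_zero (hT : 0 ≤ T)
    (hF : ∀ s : ℂ, s.re ∈ Icc (-1 : ℝ) 2 → s.im ∈ Icc 0 T → DifferentiableAt ℂ F s) :
    edgeSum F T = 0 := by
  have h := Complex.integral_boundary_rect_eq_zero_of_differentiableOn F
    (((-1 : ℝ) : ℂ) + ((0 : ℝ) : ℂ) * I) (((2 : ℝ) : ℂ) + (T : ℂ) * I) (fun s hs => by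
      rw [Complex.mem_reProdIm] at hs
      simp only [add_re, ofReal_re, mul_re, I_re, mul_zero, ofReal_im, I_im, mul_one, sub_self,
        add_zero, add_im, mul_im, zero_add, uIcc_of_le (show (-1 : ℝ) ≤ 2 by norm_num),
        uIcc_of_le hT] at hs
      exact (hF s hs.1 hs.2).differentiableWithinAt)
  simp only [add_re, ofReal_re, mul_re, I_re, mul_zero, ofReal_im, I_im, mul_one, sub_self,
    add_zero, add_im, mul_im, zero_add, ofReal_zero, zero_mul, smul_eq_mul] at h
  have := congrArg Complex.im h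
  simp only [add_im, sub_im, mul_im, I_re, I_im, zero_mul, one_mul, zero_add, zero_im] at this
  rw [edgeSum]
  linarith

theorem edgeContinuous_of_continuousAt
    (hF : ∀ s : ℂ, (s.im = 0 ∨ s.im = T ∨ s.re = 2 ∨ s.re = -1) → s.re ∈ Icc (-1 : ℝ) 2 →
      s.im ∈ uIcc 0 T → ContinuousAt F s) : EdgeContinuous F T := by
  refine ⟨fun u hu => ?_, fun u hu => ?_, fun y hy => ?_, fun y hy => ?_⟩
  · rw [uIcc_of_le (by norm_num)] at hu
    exact (ContinuousAt.comp' (g := F) (hF _ (Or.inl (by simp)) (by simpa using hu)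
      (by simp)) (by fun_prop)).continuousWithinAt
  · rw [uIcc_of_le (by norm_num)] at hu
    exact (ContinuousAt.comp' (g := F) (hF _ (Or.inr (Or.inl (by simp))) (by simpa using hu)
      (by simp)) (by fun_prop)).continuousWithinAt
  · exact (ContinuousAt.comp' (g := F) (hF _ (Or.inr (Or.inr (Or.inl (by simp)))) (by norm_num)
      (by simpa using hy)) (by fun_prop)).continuousWithinAt
  · exact (ContinuousAt.comp' (g := F) (hF _ (Or.inr (Or.inr (Or.inr (by simp)))) (by norm_num)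
      (by simpa using hy)) (by fun_prop)).continuousWithinAt

/-- The logarithmic derivative of `ξ`. -/
def xiLogDeriv (s : ℂ) : ℂ := deriv xiFn s / xiFn s

theorem edge_ne (hT : ∀ ρ, xiFn ρ = 0 → ρ.im ≠ T) {ρ : ℂ} (hρ : xiFn ρ = 0) {s : ℂ}
    (hs : s.im = 0 ∨ s.im = T ∨ s.re = 2 ∨ s.re = -1) : s ≠ ρ := by
  rintro rfl
  rcases hs with h | h | h | h
  · exact xiFn_real_ne_zero s.re (by rwa [show ((s.re : ℝ) : ℂ) = s from Complex.ext rfl h.symm])
  · exact hT s hρ h
  · linarith [(xiFn_zero_strip hρ).2]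
  · linarith [(xiFn_zero_strip hρ).1]

/-- **The argument principle.** -/
theorem edgeSum_xiLogDeriv (hT : 0 < T) (hord : ∀ ρ, xiFn ρ = 0 → ρ.im ≠ T) :
    edgeSum xiLogDeriv T = 2 * Real.pi * zeroCount T := by
  obtain ⟨Z, h, hh, he, hZ, hne, hcount⟩ := exists_xi_factor (R := T + 4) (by linarith)
  have hball : ∀ s : ℂ, s.re ∈ Icc (-1 : ℝ) 2 → s.im ∈ Icc 0 T →
      s ∈ Metric.closedBall (2 : ℂ) (T + 4) := fun s h1 h2 => by
    rw [Metric.mem_closedBall, dist_eq_norm]
    refine (norm_le_abs_re_add_abs_im _).trans ?_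
    simp only [sub_re, sub_im, re_ofNat, im_ofNat, sub_zero]
    rw [abs_of_nonneg h2.1, abs_of_nonpos (by linarith [h1.2])]
    linarith [h1.1, h2.2]
  have hdh : Differentiable ℂ (deriv h) := fun s => (hh.analyticAt s).deriv.differentiableAt
  have hH : ∀ s : ℂ, s.re ∈ Icc (-1 : ℝ) 2 → s.im ∈ Icc 0 T →
      DifferentiableAt ℂ (fun s => deriv h s / h s) s := fun s h1 h2 =>
    (hdh s).div (hh s) (hne s (hball s h1 h2))
  -- the sum over the roots
  have hroots : ∀ Y : Multiset ℂ, (∀ ρ ∈ Y, xiFn ρ = 0) →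
      EdgeContinuous (fun s => (Y.map fun ρ => (s - ρ)⁻¹).sum) T ∧
      edgeSum (fun s => (Y.map fun ρ => (s - ρ)⁻¹).sum) T =
        2 * Real.pi * (Multiset.card (Y.filter fun ρ => 0 < ρ.im ∧ ρ.im ≤ T)) := by
    intro Y
    induction Y using Multiset.induction_on with
    | empty =>
      intro _
      refine ⟨edgeContinuous_of_continuousAt fun s _ _ _ => ?_, ?_⟩
      · simp only [Multiset.map_zero, Multiset.sum_zero]
        exact continuousAt_const
      · simp [edgeSum]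
    | cons ρ Y ih =>
      intro hY
      obtain ⟨hc, hsum⟩ := ih fun x hx => hY x (Multiset.mem_cons_of_mem hx)
      have hρ := hY ρ (Multiset.mem_cons_self _ _)
      obtain ⟨h0, h1⟩ := xiFn_zero_strip hρ
      have hi : ρ.im ≠ 0 := fun hz => xiFn_real_ne_zero ρ.re
        (by rwa [show ((ρ.re : ℝ) : ℂ) = ρ from Complex.ext rfl hz.symm])
      have hiT := hord ρ hρ
      have hc1 : EdgeContinuous (fun s => (s - ρ)⁻¹) T :=
        edgeContinuous_of_continuousAt fun s hs _ _ =>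
          (continuousAt_id.sub continuousAt_const).inv₀ (sub_ne_zero.2 (edge_ne hord hρ hs))
      simp only [Multiset.map_cons, Multiset.sum_cons]
      refine ⟨hc1.add hc, ?_⟩
      rw [edgeSum_add hc1 hc, hsum, edgeSum_inv h0 h1 hi hiT]
      by_cases hin : 0 < ρ.im ∧ ρ.im ≤ T
      · rw [Multiset.filter_cons_of_pos (p := fun x : ℂ => 0 < x.im ∧ x.im ≤ T) _ hin,
          Multiset.card_cons,
          if_pos (lt_of_le_of_ne hin.2 hiT), if_pos hin.1]
        push_cast
        ring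
      · rw [Multiset.filter_cons_of_neg (p := fun x : ℂ => 0 < x.im ∧ x.im ≤ T) _ hin]
        rcases lt_or_gt_of_ne hi with hlt | hgt
        · rw [if_pos (by linarith), if_neg (by linarith)]
          ring
        · rw [if_neg (fun hlt => hin ⟨hgt, hlt.le⟩), if_pos hgt]
          ring
  have hedge : ∀ s : ℂ, (s.im = 0 ∨ s.im = T ∨ s.re = 2 ∨ s.re = -1) → s.re ∈ Icc (-1 : ℝ) 2 →
      s.im ∈ Icc 0 T → xiLogDeriv s = (Z.map fun ρ => (s - ρ)⁻¹).sum + deriv h s / h s := by
    intro s hs h1 h2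
    have hzne : ∀ ρ ∈ Z, s ≠ ρ := fun ρ hρ => edge_ne hord (hZ ρ hρ) hs
    have hd : deriv xiFn s = rootProd Z s * (Z.map fun ρ => (s - ρ)⁻¹).sum * h s +
        rootProd Z s * deriv h s := by
      rw [show xiFn = fun w => rootProd Z w * h w from funext he]
      exact ((hasDerivAt_rootProd hzne).mul (hh s).hasDerivAt).deriv
    have n1 := rootProd_ne_zero hzne
    have n2 := hne s (hball s h1 h2)
    rw [xiLogDeriv, hd, he s]
    field_simp
  have hcongr : edgeSum xiLogDeriv T =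
      edgeSum (fun s => (Z.map fun ρ => (s - ρ)⁻¹).sum + deriv h s / h s) T := by
    unfold edgeSum
    congr 1
    · congr 1
      · congr 1
        · congr 1
          refine intervalIntegral.integral_congr fun u hu => hedge _ (Or.inl (by simp)) ?_ ?_
          · rw [uIcc_of_le (by norm_num)] at hu
            simpa using hu
          · simp [hT.le]
        · congr 1
          refine intervalIntegral.integral_congr fun u hu =>
            hedge _ (Or.inr (Or.inl (by simp))) ?_ ?_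
          · rw [uIcc_of_le (by norm_num)] at hu
            simpa using hu
          · simp [hT.le]
      · congr 1
        refine intervalIntegral.integral_congr fun y hy =>
          hedge _ (Or.inr (Or.inr (Or.inl (by simp)))) (by norm_num) ?_
        rw [uIcc_of_le hT.le] at hy
        simpa using hy
    · congr 1
      refine intervalIntegral.integral_congr fun y hy =>
        hedge _ (Or.inr (Or.inr (Or.inr (by simp)))) (by norm_num) ?_
      rw [uIcc_of_le hT.le] at hy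
      simpa using hy
  obtain ⟨hc, hsum⟩ := hroots Z hZ
  rw [hcongr, edgeSum_add hc (edgeContinuous_of_continuousAt fun s _ h1 h2 =>
      (hH s h1 (by rwa [uIcc_of_le hT.le] at h2)).continuousAt),
    edgeSum_eq_zero hT.le hH, hsum, add_zero]
  congr 2
  rw [zeroCount_eq]
  classical
  calc Multiset.card (Z.filter fun ρ => 0 < ρ.im ∧ ρ.im ≤ T)
      = ∑ ρ ∈ (finite_zetaZeros T).toFinset,
          (Z.filter fun ρ => 0 < ρ.im ∧ ρ.im ≤ T).count ρ := by
        refine (Multiset.sum_count_eq_card fun ρ hρ => ?_).symm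
        rw [Multiset.mem_filter] at hρ
        rw [Set.Finite.mem_toFinset, mem_zetaZeros_iff]
        exact ⟨hZ ρ hρ.1, hρ.2⟩
    _ = _ := Finset.sum_congr rfl fun ρ hρ => by
        rw [Set.Finite.mem_toFinset, mem_zetaZeros_iff] at hρ
        rw [Multiset.count_filter_of_pos (p := fun x : ℂ => 0 < x.im ∧ x.im ≤ T) hρ.2, hcount ρ]
        obtain ⟨h0, h1⟩ := xiFn_zero_strip hρ.1
        exact hball ρ ⟨by linarith, by linarith⟩ ⟨hρ.2.1.le, hρ.2.2⟩

theorem continuousAt_xiLogDeriv {s : ℂ} (hs : xiFn s ≠ 0) : ContinuousAt xiLogDeriv s :=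
  ((differentiable_xiFn.analyticAt s).deriv.differentiableAt.continuousAt).div
    (differentiable_xiFn s).continuousAt hs

theorem xiLogDeriv_one_sub (s : ℂ) : xiLogDeriv (1 - s) = -xiLogDeriv s := by
  have h : deriv xiFn (1 - s) = -deriv xiFn s := by
    have h1 := deriv_comp_const_sub (f := xiFn) (a := (1 : ℂ)) (x := s)
    rw [show (fun x => xiFn (1 - x)) = xiFn from funext xiFn_one_sub] at h1
    rw [h1, neg_neg]
  rw [xiLogDeriv, xiLogDeriv, h, xiFn_one_sub, neg_div]

/-- The rectangle reduced to the right half, by the functional equation. -/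
theorem edgeSum_reflect (hord : ∀ ρ, xiFn ρ = 0 → ρ.im ≠ T) :
    edgeSum xiLogDeriv T = (∫ u in (-1 : ℝ)..2, xiLogDeriv (u : ℂ)).im +
      (∫ y in (-T)..T, xiLogDeriv (((2 : ℝ) : ℂ) + y * I)).re -
      (∫ u in (1 / 2 : ℝ)..2, xiLogDeriv ((u : ℂ) + T * I)).im +
      (∫ u in (1 / 2 : ℝ)..2, xiLogDeriv ((u : ℂ) + ((-T : ℝ) : ℂ) * I)).im := by
  have hv : Continuous fun y : ℝ => xiLogDeriv (((2 : ℝ) : ℂ) + y * I) :=
    continuous_iff_continuousAt.2 fun y => ContinuousAt.comp' (g := xiLogDeriv)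
      (continuousAt_xiLogDeriv (xiFn_ne_zero_of_one_le (by simp))) (by fun_prop)
  have hh : Continuous fun u : ℝ => xiLogDeriv ((u : ℂ) + T * I) :=
    continuous_iff_continuousAt.2 fun u => ContinuousAt.comp' (g := xiLogDeriv)
      (continuousAt_xiLogDeriv fun h => hord _ h (by simp)) (by fun_prop)
  have eL : (∫ y in (0 : ℝ)..T, xiLogDeriv (((-1 : ℝ) : ℂ) + y * I)) =
      -∫ y in (-T)..0, xiLogDeriv (((2 : ℝ) : ℂ) + y * I) := by
    have : ∀ y : ℝ, xiLogDeriv (((-1 : ℝ) : ℂ) + y * I) =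
        -xiLogDeriv (((2 : ℝ) : ℂ) + ((-y : ℝ) : ℂ) * I) := fun y => by
      rw [← xiLogDeriv_one_sub]
      congr 1
      push_cast
      ring
    simp only [this, intervalIntegral.integral_neg]
    rw [intervalIntegral.integral_comp_neg fun y : ℝ => xiLogDeriv (((2 : ℝ) : ℂ) + y * I),
      neg_zero]
  have eT : (∫ u in (-1 : ℝ)..2, xiLogDeriv ((u : ℂ) + T * I)) =
      -(∫ u in (1 / 2 : ℝ)..2, xiLogDeriv ((u : ℂ) + ((-T : ℝ) : ℂ) * I)) +
        ∫ u in (1 / 2 : ℝ)..2, xiLogDeriv ((u : ℂ) + T * I) := by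
    rw [← intervalIntegral.integral_add_adjacent_intervals (b := (1 / 2 : ℝ))
      (hh.intervalIntegrable _ _) (hh.intervalIntegrable _ _)]
    congr 1
    have : ∀ u : ℝ, xiLogDeriv ((u : ℂ) + T * I) =
        -xiLogDeriv (((1 - u : ℝ) : ℂ) + ((-T : ℝ) : ℂ) * I) := fun u => by
      rw [← xiLogDeriv_one_sub]
      congr 1
      push_cast
      ring
    simp only [this, intervalIntegral.integral_neg]
    rw [intervalIntegral.integral_comp_sub_left
      (fun u : ℝ => xiLogDeriv ((u : ℂ) + ((-T : ℝ) : ℂ) * I)) 1]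
    norm_num
  rw [edgeSum, eL, eT, ← intervalIntegral.integral_add_adjacent_intervals (b := (0 : ℝ))
    (hv.intervalIntegrable (-T) 0) (hv.intervalIntegrable 0 T)]
  simp only [add_im, add_re, neg_im, neg_re]
  ring

/-- The decomposition on `re s > 0`. -/
theorem xiLogDeriv_eq {s : ℂ} (hs : 0 < s.re) (hs1 : s ≠ 1) (hz : riemannZeta s ≠ 0) :
    xiLogDeriv s =
      s⁻¹ + (s - 1)⁻¹ + deriv Gammaℝ s / Gammaℝ s + deriv riemannZeta s / riemannZeta s := by
  have hs0 : s ≠ 0 := fun h => by simp [h] at hs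
  have h1 := sub_ne_zero.2 hs1
  have hG := Gammaℝ_ne_zero_of_re_pos hs
  have he : xiFn =ᶠ[𝓝 s] fun z => z * (z - 1) * Gammaℝ z * riemannZeta z / 2 := by
    filter_upwards [((isOpen_lt continuous_const continuous_re).inter isOpen_ne).mem_nhds
      (show s ∈ {z : ℂ | 0 < z.re} ∩ {z | z ≠ 1} from ⟨hs, hs1⟩)] with z hz
    have := sub_ne_zero.2 hz.2
    rw [xiFn_eq hz.1, riemannZeta_eq_inv_sub_mul hz.2]
    field_simp
  have hd := (((hasDerivAt_id' s).mul ((hasDerivAt_id' s).sub_const 1)).mul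
    (differentiableAt_realGamma hs).hasDerivAt).mul
      (differentiableAt_riemannZeta hs1).hasDerivAt |>.div_const 2
  rw [xiLogDeriv, he.deriv_eq, he.eq_of_nhds]
  rw [show deriv (fun z => z * (z - 1) * Gammaℝ z * riemannZeta z / 2) s = _ from hd.deriv]
  simp only [Pi.mul_apply]
  field_simp

theorem abs_arg_sub_le (a b : ℂ) : |a.arg - b.arg| ≤ 2 * Real.pi := by
  refine (abs_sub _ _).trans ?_
  linarith [Complex.abs_arg_le_pi a, Complex.abs_arg_le_pi b]

theorem norm_zeta_sub_one_lt {y : ℝ} : 0 < (riemannZeta (((2 : ℝ) : ℂ) + y * I)).re := by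
  have hs : (((2 : ℝ) : ℂ) + y * I).re = 2 := by simp
  have hS : LSeriesSummable 1 (((2 : ℝ) : ℂ) + y * I) :=
    LSeriesSummable_one_iff.2 (by rw [hs]; norm_num)
  have h2 : HasSum (fun n : ℕ => (LSeries.term 1 (((2 : ℝ) : ℂ) + y * I) n).re)
      (riemannZeta (((2 : ℝ) : ℂ) + y * I)).re := by
    rw [← LSeries_one_eq_riemannZeta (by rw [hs]; norm_num)]
    exact Complex.hasSum_re hS.hasSum
  have h1 : HasSum (fun n : ℕ => 1 / (n : ℝ) ^ 2) (Real.pi ^ 2 / 6) := hasSum_zeta_two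
  have hle : ∀ n : ℕ, (if n = 1 then 2 else 0) - 1 / (n : ℝ) ^ 2 ≤
      (LSeries.term 1 (((2 : ℝ) : ℂ) + y * I) n).re := by
    intro n
    rcases eq_or_ne n 1 with rfl | h1
    · norm_num [LSeries.term_of_ne_zero one_ne_zero]
    rcases eq_or_ne n 0 with rfl | h0
    · simp
    rw [if_neg h1, zero_sub]
    refine le_trans ?_ (neg_le_of_abs_le (Complex.abs_re_le_norm _))
    rw [LSeries.norm_term_eq, if_neg h0, hs, Pi.one_apply, norm_one, Real.rpow_two]
  have h := hasSum_le hle ((hasSum_ite_eq 1 (2 : ℝ)).sub h1) h2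
  nlinarith [Real.pi_pos, Real.pi_lt_d2]

/-- **The right side.** -/
theorem abs_vertical_sub_le (hT : 2 ≤ T) :
    |(∫ y in (-T)..T, xiLogDeriv (((2 : ℝ) : ℂ) + y * I)).re -
      (T * Real.log (T / (2 * Real.pi)) - T)| ≤ 30 := by
  obtain ⟨P, hP⟩ : ∃ P : ℂ → ℂ, P = fun s => Complex.log s + Complex.log (s - 1) +
      logGammaReal s + Complex.log (riemannZeta s) := ⟨_, rfl⟩
  have hpt : ∀ y : ℝ, HasDerivAt (fun v : ℝ => P (((2 : ℝ) : ℂ) + v * I))
      (I * xiLogDeriv (((2 : ℝ) : ℂ) + y * I)) y := by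
    intro y
    have hre : (((2 : ℝ) : ℂ) + y * I).re = 2 := by simp
    have hne : ((2 : ℝ) : ℂ) + y * I ≠ 1 := fun h => by rw [h] at hre; norm_num at hre
    have hd : HasDerivAt P (xiLogDeriv (((2 : ℝ) : ℂ) + y * I)) (((2 : ℝ) : ℂ) + y * I) := by
      rw [hP, xiLogDeriv_eq (by rw [hre]; norm_num) hne
        (riemannZeta_ne_zero_of_one_le_re (by rw [hre]; norm_num))]
      refine (((hasDerivAt_id' _).clog (Or.inl (by rw [hre]; norm_num))).add
        (((hasDerivAt_id' _).sub_const 1).clog (Or.inl (by simp)))).add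
        (hasDerivAt_logGammaReal (by rw [hre]; norm_num)) |>.add
        ((differentiableAt_riemannZeta hne).hasDerivAt.clog (Or.inl norm_zeta_sub_one_lt))
          |>.congr_deriv ?_
      simp only [one_div]
    have := hd.comp y (((hasDerivAt_id' (y : ℂ)).mul_const I).const_add
      ((2 : ℝ) : ℂ)).comp_ofReal
    exact this.congr_deriv (by ring)
  have hv : Continuous fun y : ℝ => I * xiLogDeriv (((2 : ℝ) : ℂ) + y * I) :=
    continuous_iff_continuousAt.2 fun y => continuousAt_const.mul (ContinuousAt.comp'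
      (g := xiLogDeriv) (continuousAt_xiLogDeriv (xiFn_ne_zero_of_one_le (by simp))) (by fun_prop))
  have h := intervalIntegral.integral_eq_sub_of_hasDerivAt (fun y _ => hpt y)
    (hv.intervalIntegrable (-T) T)
  rw [intervalIntegral.integral_const_mul] at h
  have h1 := congrArg Complex.im h
  simp only [mul_im, I_re, I_im, zero_mul, one_mul, zero_add, sub_im] at h1
  rw [hP] at h1
  simp only [add_im, Complex.log_im, im_logGammaReal] at h1
  have e : ∀ v : ℝ, (((2 : ℝ) : ℂ) + v * I) / 2 = ((1 : ℝ) : ℂ) + ((v / 2 : ℝ) : ℂ) * I := by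
    intro v
    push_cast
    ring
  rw [e, e] at h1
  simp only [ofReal_im, mul_im, ofReal_re, I_re, I_im, mul_zero, mul_one, add_zero, zero_add] at h1
  have g1 := abs_im_logGam_sub_le (σ := 1) (t := T / 2) one_pos le_rfl
    (by rw [abs_of_nonneg (by linarith)]; linarith)
  have g2 := abs_im_logGam_sub_le (σ := 1) (t := -T / 2) one_pos le_rfl
    (by rw [abs_of_nonpos (by linarith)]; linarith)
  rw [abs_of_nonneg (show (0 : ℝ) ≤ T / 2 by linarith)] at g1
  rw [neg_div, abs_neg, abs_of_nonneg (show (0 : ℝ) ≤ T / 2 by linarith)] at g2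
  rw [neg_div] at h1
  have elog : T * Real.log (T / (2 * Real.pi)) =
      T * Real.log (T / 2) - T * Real.log Real.pi := by
    rw [show T / (2 * Real.pi) = T / 2 / Real.pi by ring, Real.log_div (by positivity)
      Real.pi_ne_zero]
    ring
  have hπ := Real.pi_lt_d2
  have r1 := abs_arg_sub_le (((2 : ℝ) : ℂ) + (T : ℂ) * I) (((2 : ℝ) : ℂ) + ((-T : ℝ) : ℂ) * I)
  have r2 := abs_arg_sub_le (((2 : ℝ) : ℂ) + (T : ℂ) * I - 1)
    (((2 : ℝ) : ℂ) + ((-T : ℝ) : ℂ) * I - 1)
  have r3 := abs_arg_sub_le (riemannZeta (((2 : ℝ) : ℂ) + (T : ℂ) * I))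
    (riemannZeta (((2 : ℝ) : ℂ) + ((-T : ℝ) : ℂ) * I))
  rw [elog, h1]
  rw [abs_le] at g1 g2 r1 r2 r3 ⊢
  constructor <;> linarith

/-- The sum over the nearby zeros on a horizontal segment. -/
theorem abs_im_integral_roots {t : ℝ} (Z : Multiset ℂ) (hZ : ∀ ρ ∈ Z, ρ.im ≠ t) :
    IntervalIntegrable (fun u : ℝ => (Z.map fun ρ => ((u : ℂ) + t * I - ρ)⁻¹).sum) volume
        (1 / 2) 2 ∧
      |(∫ u in (1 / 2 : ℝ)..2, (Z.map fun ρ => ((u : ℂ) + t * I - ρ)⁻¹).sum).im| ≤
        2 * Real.pi * Multiset.card Z := by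
  induction Z using Multiset.induction_on with
  | empty => simp
  | cons ρ Z ih =>
    obtain ⟨hi, hb⟩ := ih fun x hx => hZ x (Multiset.mem_cons_of_mem hx)
    have hρ : ((t : ℂ) * I - ρ).im ≠ 0 := by
      simpa [sub_eq_zero] using Ne.symm (hZ ρ (Multiset.mem_cons_self _ _))
    have hi1 : IntervalIntegrable (fun u : ℝ => ((u : ℂ) + t * I - ρ)⁻¹) volume (1 / 2) 2 :=
      (ContinuousOn.inv₀ (by fun_prop) fun u _ h => hρ (by
        simpa using congrArg Complex.im h)).intervalIntegrable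
    simp only [Multiset.map_cons, Multiset.sum_cons, Multiset.card_cons]
    refine ⟨hi1.add hi, ?_⟩
    rw [intervalIntegral.integral_add hi1 hi, add_im]
    refine (abs_add_le _ _).trans ?_
    push_cast
    have h1 : |(∫ u in (1 / 2 : ℝ)..2, ((u : ℂ) + t * I - ρ)⁻¹).im| ≤ 2 * Real.pi := by
      simp only [show ∀ u : ℝ, (u : ℂ) + t * I - ρ = (u : ℂ) + (t * I - ρ) from fun u => by ring]
      rw [integral_inv_horizontal hρ, Complex.sub_im, Complex.log_im, Complex.log_im]
      exact abs_arg_sub_le _ _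
    linarith

/-- **The horizontal segments.** -/
theorem exists_horizontal_le : ∃ C, 0 ≤ C ∧ ∀ t : ℝ, 3 ≤ |t| →
    (∀ ρ, xiFn ρ = 0 → ρ.im ≠ t) →
      |(∫ u in (1 / 2 : ℝ)..2, xiLogDeriv ((u : ℂ) + t * I)).im| ≤ C * ell t := by
  obtain ⟨K, hK, hexp⟩ := exists_zeta_expansion
  refine ⟨2 * Real.pi * K + 2 * K + 30, by positivity, fun t ht hord => ?_⟩
  have ht0 : t ≠ 0 := fun h => by rw [h] at ht; norm_num at ht
  obtain ⟨Z, hZ, hcard, hcount, hlog⟩ := hexp t ht
  have hZim : ∀ ρ ∈ Z, ρ.im ≠ t := by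
    intro ρ hρ
    have hc : 0 < Z.count ρ := Multiset.count_pos.2 hρ
    rw [← hcount ρ (hZ ρ hρ)] at hc
    have hz : riemannZeta ρ = 0 := apply_eq_zero_of_analyticOrderNatAt_ne_zero hc.ne'
    have h0 : 0 < ρ.re := by
      have h := (abs_re_le_norm _).trans (hZ ρ hρ)
      simp at h
      linarith [(abs_le.1 h).1]
    intro him
    have h1 : ρ ≠ 1 := fun h => ht0 (by rw [← him, h, one_im])
    exact hord ρ ((xiFn_eq_zero_iff h0 h1).2 hz) him
  have hzeta : ∀ u ∈ Icc (1 / 2 : ℝ) 2, riemannZeta ((u : ℂ) + t * I) ≠ 0 ∧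
      (u : ℂ) + t * I ≠ 1 := by
    intro u hu
    have h1 : (u : ℂ) + t * I ≠ 1 := fun h => ht0 (by simpa using congrArg Complex.im h)
    exact ⟨fun hz => hord _ ((xiFn_eq_zero_iff (by simp; linarith [hu.1]) h1).2 hz) (by simp), h1⟩
  obtain ⟨P, hP⟩ : ∃ P : ℂ → ℂ, P = fun s => Complex.log s + Complex.log (s - 1) +
      logGammaReal s := ⟨_, rfl⟩
  obtain ⟨E, hE⟩ : ∃ E : ℝ → ℂ, E = fun u : ℝ => xiLogDeriv ((u : ℂ) + t * I) -
      deriv riemannZeta ((u : ℂ) + t * I) / riemannZeta ((u : ℂ) + t * I) := ⟨_, rfl⟩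
  have hzc : ContinuousOn (fun u : ℝ => deriv riemannZeta ((u : ℂ) + t * I) /
      riemannZeta ((u : ℂ) + t * I)) (uIcc (1 / 2) 2) := by
    intro u hu
    rw [uIcc_of_le (by norm_num)] at hu
    obtain ⟨hz, h1⟩ := hzeta u hu
    have ha : AnalyticAt ℂ riemannZeta ((u : ℂ) + t * I) :=
      DifferentiableOn.analyticAt (fun z hz =>
        (differentiableAt_riemannZeta hz).differentiableWithinAt) (isOpen_ne.mem_nhds h1)
    exact (ContinuousAt.comp' (g := fun s => deriv riemannZeta s / riemannZeta s)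
      (f := fun v : ℝ => (v : ℂ) + t * I)
      (ha.deriv.continuousAt.div ha.continuousAt hz) (by fun_prop)).continuousWithinAt
  have hxc : ContinuousOn (fun u : ℝ => xiLogDeriv ((u : ℂ) + t * I)) (uIcc (1 / 2) 2) :=
    fun u _ => (ContinuousAt.comp' (g := xiLogDeriv)
      (continuousAt_xiLogDeriv fun h => hord _ h (by simp)) (by fun_prop)).continuousWithinAt
  have hEi : IntervalIntegrable E volume (1 / 2) 2 := hE ▸ (hxc.sub hzc).intervalIntegrable
  have hEint : (∫ u in (1 / 2 : ℝ)..2, E u) =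
      P (((2 : ℝ) : ℂ) + t * I) - P (((1 / 2 : ℝ) : ℂ) + t * I) := by
    refine intervalIntegral.integral_eq_sub_of_hasDerivAt
      (f := fun u : ℝ => P ((u : ℂ) + t * I)) (fun u hu => ?_) hEi
    rw [uIcc_of_le (by norm_num)] at hu
    obtain ⟨hz, h1⟩ := hzeta u hu
    have hre : 0 < ((u : ℂ) + t * I).re := by simp; linarith [hu.1]
    have hd : HasDerivAt P (E u) ((u : ℂ) + t * I) := by
      simp only [hP, hE, xiLogDeriv_eq hre h1 hz, add_sub_cancel_right]
      refine (((hasDerivAt_id' _).clog (Or.inl hre)).add (((hasDerivAt_id' _).sub_const 1).clog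
        (Or.inr (by simpa using ht0)))).add (hasDerivAt_logGammaReal hre) |>.congr_deriv ?_
      simp only [one_div]
    have := hd.comp u (((hasDerivAt_id' (u : ℂ)).add_const ((t : ℂ) * I)).comp_ofReal)
    exact this.congr_deriv (by ring)
  have hEb : |(∫ u in (1 / 2 : ℝ)..2, E u).im| ≤ 30 := by
    rw [hEint, hP]
    simp only [sub_im, add_im, Complex.log_im, im_logGammaReal]
    have e : ∀ v : ℝ, ((v : ℂ) + t * I) / 2 = ((v / 2 : ℝ) : ℂ) + ((t / 2 : ℝ) : ℂ) * I := by
      intro v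
      push_cast
      ring
    rw [e, e]
    simp only [ofReal_im, mul_im, ofReal_re, I_re, I_im, mul_zero, mul_one, add_zero, zero_add]
    have ht2 : 1 ≤ |t / 2| := by
      rw [abs_div, abs_two]
      linarith
    have g1 := abs_im_logGam_sub_le (σ := (2 : ℝ) / 2) (by norm_num) (by norm_num) ht2
    have g2 := abs_im_logGam_sub_le (σ := (1 / 2 : ℝ) / 2) (by norm_num) (by norm_num) ht2
    have r1 := abs_arg_sub_le (((2 : ℝ) : ℂ) + (t : ℂ) * I) (((1 / 2 : ℝ) : ℂ) + (t : ℂ) * I)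
    have r2 := abs_arg_sub_le (((2 : ℝ) : ℂ) + (t : ℂ) * I - 1)
      (((1 / 2 : ℝ) : ℂ) + (t : ℂ) * I - 1)
    rw [abs_le] at g1 g2 r1 r2 ⊢
    constructor <;> linarith [Real.pi_lt_d2]
  obtain ⟨hRi, hRb⟩ := abs_im_integral_roots Z hZim
  have hrem : |(∫ u in (1 / 2 : ℝ)..2, (deriv riemannZeta ((u : ℂ) + t * I) /
      riemannZeta ((u : ℂ) + t * I) - (Z.map fun ρ => ((u : ℂ) + t * I - ρ)⁻¹).sum)).im| ≤
      2 * K * ell t := by
    refine (abs_im_le_norm _).trans ?_
    refine (intervalIntegral.norm_integral_le_of_norm_le_const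
      (C := K * ell t) fun u hu => ?_).trans ?_
    · rw [uIoc_of_le (by norm_num)] at hu
      refine hlog _ ?_ (hzeta u ⟨hu.1.le, hu.2⟩).1
      rw [show (u : ℂ) + t * I - (((3 / 2 : ℝ) : ℂ) + t * I) = ((u - 3 / 2 : ℝ) : ℂ) by
        push_cast; ring, Complex.norm_real, Real.norm_eq_abs, abs_le]
      constructor <;> linarith [hu.1, hu.2]
    · have := mul_nonneg hK (ell_pos t).le
      norm_num
      linarith
  have hsplit : (∫ u in (1 / 2 : ℝ)..2, xiLogDeriv ((u : ℂ) + t * I)) =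
      (∫ u in (1 / 2 : ℝ)..2, E u) +
      ((∫ u in (1 / 2 : ℝ)..2, (deriv riemannZeta ((u : ℂ) + t * I) /
        riemannZeta ((u : ℂ) + t * I) - (Z.map fun ρ => ((u : ℂ) + t * I - ρ)⁻¹).sum)) +
      ∫ u in (1 / 2 : ℝ)..2, (Z.map fun ρ => ((u : ℂ) + t * I - ρ)⁻¹).sum) := by
    rw [intervalIntegral.integral_sub hzc.intervalIntegrable hRi, sub_add_cancel,
      ← intervalIntegral.integral_add hEi hzc.intervalIntegrable, hE]
    simp only [sub_add_cancel]
  rw [hsplit, add_im, add_im]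
  have hl := four_le_ell t
  have h2 := mul_le_mul_of_nonneg_left hcard (show 0 ≤ 2 * Real.pi by positivity)
  refine (abs_add_le _ _).trans ?_
  have h3 := abs_add_le (∫ u in (1 / 2 : ℝ)..2, (deriv riemannZeta ((u : ℂ) + t * I) /
      riemannZeta ((u : ℂ) + t * I) - (Z.map fun ρ => ((u : ℂ) + t * I - ρ)⁻¹).sum)).im
    (∫ u in (1 / 2 : ℝ)..2, (Z.map fun ρ => ((u : ℂ) + t * I - ρ)⁻¹).sum).im
  nlinarith

/-- The main term. -/
def mainTerm (T : ℝ) : ℝ :=
  T / (2 * Real.pi) * Real.log (T / (2 * Real.pi)) - T / (2 * Real.pi)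

/-- The formula away from the ordinates. -/
theorem exists_count_nonordinate : ∃ C, 0 ≤ C ∧ ∀ T : ℝ, 3 ≤ T →
    (∀ ρ, xiFn ρ = 0 → ρ.im ≠ T) → |(zeroCount T : ℝ) - mainTerm T| ≤ C * ell T := by
  obtain ⟨K, hK, hhor⟩ := exists_horizontal_le
  obtain ⟨D, hD⟩ : ∃ D, D = |(∫ u in (-1 : ℝ)..2, xiLogDeriv (u : ℂ)).im| := ⟨_, rfl⟩
  refine ⟨D + 30 + 2 * K, by rw [hD]; positivity, fun T hT hord => ?_⟩
  have hneg : ∀ ρ, xiFn ρ = 0 → ρ.im ≠ -T := fun ρ hρ h =>
    hord (1 - ρ) (by rw [xiFn_one_sub, hρ]) (by simp [h])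
  have h := (edgeSum_xiLogDeriv (by linarith) hord).symm.trans
    (edgeSum_reflect hord)
  have hv := abs_vertical_sub_le (T := T) (by linarith)
  have h1 := hhor T (by rwa [abs_of_nonneg (by linarith)]) hord
  have h2 := hhor (-T) (by rwa [abs_neg, abs_of_nonneg (by linarith)]) hneg
  rw [show ell (-T) = ell T by rw [ell, ell, abs_neg]] at h2
  have e : T * Real.log (T / (2 * Real.pi)) - T = 2 * Real.pi * mainTerm T := by
    have := Real.pi_ne_zero
    rw [mainTerm]
    field_simp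
  rw [e] at hv
  have hl := four_le_ell T
  have hD0 : 0 ≤ D := hD ▸ abs_nonneg _
  have hb : |2 * Real.pi * ((zeroCount T : ℝ) - mainTerm T)| ≤ (D + 30 + 2 * K) * ell T := by
    have h3 := hD.ge
    rw [abs_le] at hv h1 h2 h3 ⊢
    constructor <;> nlinarith
  rw [abs_mul, abs_of_pos (by positivity)] at hb
  nlinarith [abs_nonneg ((zeroCount T : ℝ) - mainTerm T), Real.pi_gt_three]

theorem mainTerm_near {S T : ℝ} (hS : 3 ≤ S) (hST : S ≤ T) (hT : T ≤ S + 1) :
    |mainTerm T - mainTerm S| ≤ 4 * ell S := by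
  have hπ := Real.pi_gt_three
  have hπ2 := Real.pi_lt_d2
  have hd : ∀ x ∈ Icc S T, HasDerivWithinAt mainTerm
      (1 / (2 * Real.pi) * Real.log (x / (2 * Real.pi))) (Icc S T) x := by
    intro x hx
    have hx0 : x ≠ 0 := by linarith [hx.1]
    have h1 := (hasDerivAt_id' x).div_const (2 * Real.pi)
    refine ((h1.mul (h1.log (div_ne_zero hx0 (by positivity)))).sub h1).congr_deriv ?_
      |>.hasDerivWithinAt
    field_simp
    ring
  have hb : ∀ x ∈ Icc S T, ‖1 / (2 * Real.pi) * Real.log (x / (2 * Real.pi))‖ ≤ 4 * ell S := by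
    intro x hx
    have hx0 : 0 < x := by linarith [hx.1]
    rw [norm_mul, Real.norm_of_nonneg (by positivity), Real.norm_eq_abs]
    refine (mul_le_of_le_one_left (abs_nonneg _) (by rw [div_le_one (by positivity)]; linarith)
      ).trans ?_
    rw [Real.log_div hx0.ne' (by positivity)]
    refine (abs_sub _ _).trans ?_
    have hl := four_le_ell S
    have a1 : |Real.log x| ≤ ell S := by
      rw [abs_of_nonneg (Real.log_nonneg (by linarith [hx.1]))]
      exact Real.log_le_log hx0 (by rw [abs_of_nonneg (by linarith)]; linarith [hx.2])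
    have a2 : |Real.log (2 * Real.pi)| ≤ 7 := by
      rw [abs_of_nonneg (Real.log_nonneg (by linarith))]
      exact (Real.log_le_self (by positivity)).trans (by linarith)
    linarith
  have := (convex_Icc S T).norm_image_sub_le_of_norm_hasDerivWithin_le hd hb
    (left_mem_Icc.2 hST) (right_mem_Icc.2 hST)
  rw [Real.norm_eq_abs, Real.norm_eq_abs, abs_of_nonneg (by linarith : 0 ≤ T - S)] at this
  nlinarith [four_le_ell S]

/-- **The formula of Riemann and von Mangoldt.** -/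
theorem exists_count : ∃ C, 0 ≤ C ∧ ∀ T : ℝ, 3 ≤ T →
    |(zeroCount T : ℝ) - mainTerm T| ≤ C * ell T := by
  obtain ⟨C, hC, h⟩ := exists_count_nonordinate
  refine ⟨2 * C + 4, by positivity, fun T hT => ?_⟩
  obtain ⟨A, hA⟩ : ∃ A : Set ℝ, A = Complex.im '' zetaZeros (T + 1) := ⟨_, rfl⟩
  have hAf : A.Finite := hA ▸ (finite_zetaZeros _).image _
  have hev : ∀ᶠ x in 𝓝[>] T, ∀ a ∈ A, a ≤ T ∨ x < a := by
    rw [hAf.eventually_all]
    intro a _
    rcases le_or_gt a T with ha | ha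
    · exact Eventually.of_forall fun _ => Or.inl ha
    · exact ((eventually_lt_nhds ha).filter_mono nhdsWithin_le_nhds).mono fun _ hx => Or.inr hx
  obtain ⟨T', ⟨hgap, hT'⟩, hgt⟩ := ((hev.and ((eventually_lt_nhds (show T < T + 1 by linarith)
    ).filter_mono nhdsWithin_le_nhds)).and self_mem_nhdsWithin).exists
  replace hgt : T < T' := hgt
  have hord : ∀ ρ, xiFn ρ = 0 → ρ.im ≠ T' := fun ρ hρ him => by
    have hm : ρ.im ∈ A := hA ▸ ⟨ρ, mem_zetaZeros_iff.2 ⟨hρ, by linarith, by linarith⟩, rfl⟩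
    rcases hgap _ hm with h1 | h1 <;> linarith
  have hN : zeroCount T' = zeroCount T := by
    refine le_antisymm ?_ (zeroCount_mono hgt.le)
    refine Finset.sum_le_sum_of_subset fun ρ hρ => ?_
    rw [Set.Finite.mem_toFinset] at hρ ⊢
    obtain ⟨h1, h2, h3, h4, h5⟩ := hρ
    refine ⟨h1, h2, h3, h4, ?_⟩
    by_contra hlt
    have hm : ρ.im ∈ A := hA ▸ ⟨ρ, ⟨h1, h2, h3, h4, by linarith⟩, rfl⟩
    rcases hgap _ hm with h6 | h6 <;> linarith
  have h1 := h T' (by linarith) hord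
  rw [hN] at h1
  have h2 : ell T' ≤ 5 / 4 * ell T := ell_near (by rw [abs_le]; constructor <;> linarith)
  have h3 := mainTerm_near hT hgt.le hT'.le
  have h4 := abs_sub_le (zeroCount T : ℝ) (mainTerm T') (mainTerm T)
  have h5 := mul_le_mul_of_nonneg_left h2 hC
  nlinarith [mul_nonneg hC (ell_pos T).le]

end FA.RiemannMangoldt

end
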