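import Fermat.Agent.RiemannMangoldt.Factor
import Fermat.Agent.DelaValleePoussin.Region
import Fermat.Agent.PsiOscillation.Landau

/-!
# Riemann's `ξ`, the count of zeros, and the count in a window

`ξ` is entire, `ξ (1 - s) = ξ s`, and its zeros are the zeros of `ζ` with `0 < re s < 1`, with the
same orders. A window of bounded length at height `t` holds `O (log |t|)` of them.
-/

set_option autoImplicit false

noncomputable section

namespace FA.RiemannMangoldt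

open Complex Metric Set Filter Topology FA.ZeroFree

/-- Riemann's `ξ`. -/
def xiFn (s : ℂ) : ℂ := (s * (s - 1) * completedRiemannZeta₀ s + 1) / 2

theorem differentiable_xiFn : Differentiable ℂ xiFn :=
  (((differentiable_id.mul (differentiable_id.sub_const 1)).mul
    differentiable_completedZeta₀).add_const 1).div_const 2

theorem xiFn_one_sub (s : ℂ) : xiFn (1 - s) = xiFn s := by
  rw [xiFn, xiFn, completedRiemannZeta₀_one_sub]
  ring

theorem differentiableAt_realGamma {s : ℂ} (hs : 0 < s.re) : DifferentiableAt ℂ Gammaℝ s := by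
  have h := (differentiable_Gammaℝ_inv s).fun_inv (inv_ne_zero (Gammaℝ_ne_zero_of_re_pos hs))
  simpa using h

theorem xiFn_eq {s : ℂ} (hs : 0 < s.re) :
    xiFn s = s * Gammaℝ s * riemannZeta₁ s / 2 := by
  rcases eq_or_ne s 1 with rfl | h1
  · simp [xiFn]
  have hs0 : s ≠ 0 := fun h => by simp [h] at hs
  have hs1 := sub_ne_zero.2 h1
  have h2 : (1 : ℂ) - s ≠ 0 := sub_ne_zero.2 h1.symm
  have hG := Gammaℝ_ne_zero_of_re_pos hs
  have hz : riemannZeta₁ s = (s - 1) * riemannZeta s := by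
    rw [riemannZeta_eq_inv_sub_mul h1]
    field_simp
  rw [xiFn, hz, riemannZeta_def_of_ne_zero hs0, completedRiemannZeta_eq]
  field_simp
  ring

theorem xiFn_ne_zero_of_one_le {s : ℂ} (hs : 1 ≤ s.re) : xiFn s ≠ 0 := by
  have hs0 : s ≠ 0 := fun h => by rw [h] at hs; norm_num at hs
  rw [xiFn_eq (by linarith)]
  exact div_ne_zero (mul_ne_zero (mul_ne_zero hs0 (Gammaℝ_ne_zero_of_re_pos (by linarith)))
    (riemannZeta₁_ne_zero_of_one_le hs)) two_ne_zero

theorem xiFn_zero_strip {s : ℂ} (h : xiFn s = 0) : 0 < s.re ∧ s.re < 1 := by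
  constructor
  · by_contra hc
    exact xiFn_ne_zero_of_one_le (s := 1 - s) (by simp; linarith) (by rw [xiFn_one_sub, h])
  · by_contra hc
    exact xiFn_ne_zero_of_one_le (not_lt.1 hc) h

theorem xiFn_real_ne_zero (x : ℝ) : xiFn (x : ℂ) ≠ 0 := fun h => by
  have hs : 0 < x := by simpa using (xiFn_zero_strip h).1
  have hs0 : (x : ℂ) ≠ 0 := ofReal_ne_zero.2 hs.ne'
  rw [xiFn_eq (by simpa using hs)] at h
  exact div_ne_zero (mul_ne_zero (mul_ne_zero hs0 (Gammaℝ_ne_zero_of_re_pos (by simpa using hs)))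
    (FA.PsiOscillation.riemannZeta₁_real_ne_zero hs)) two_ne_zero h

theorem xiFn_eq_zero_iff {s : ℂ} (hs : 0 < s.re) (hs1 : s ≠ 1) :
    xiFn s = 0 ↔ riemannZeta s = 0 := by
  have hs0 : s ≠ 0 := fun h => by simp [h] at hs
  rw [xiFn_eq hs, riemannZeta_eq_inv_sub_mul hs1]
  simp [hs0, Gammaℝ_ne_zero_of_re_pos hs, sub_ne_zero.2 hs1]

theorem analyticOrderNatAt_xiFn {s : ℂ} (hs : 0 < s.re) (hs1 : s ≠ 1) :
    analyticOrderNatAt xiFn s = analyticOrderNatAt riemannZeta s := by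
  have hV : IsOpen {z : ℂ | 0 < z.re ∧ z ≠ 1} :=
    (isOpen_lt continuous_const continuous_re).inter isOpen_ne
  have hmem := hV.mem_nhds (show s ∈ {z : ℂ | 0 < z.re ∧ z ≠ 1} from ⟨hs, hs1⟩)
  have hz : AnalyticAt ℂ riemannZeta s :=
    DifferentiableOn.analyticAt (fun z hz =>
      (differentiableAt_riemannZeta hz.2).differentiableWithinAt) hmem
  have hu : AnalyticAt ℂ (fun z => z * (z - 1) * Gammaℝ z / 2) s :=
    DifferentiableOn.analyticAt (fun z hz => (((differentiableAt_id.mul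
      (differentiableAt_id.sub_const 1)).mul (differentiableAt_realGamma hz.1)).div_const
        2).differentiableWithinAt) hmem
  have hu0 : (fun z => z * (z - 1) * Gammaℝ z / 2) s ≠ 0 :=
    div_ne_zero (mul_ne_zero (mul_ne_zero (fun h => by simp [h] at hs) (sub_ne_zero.2 hs1))
      (Gammaℝ_ne_zero_of_re_pos hs)) two_ne_zero
  have he : xiFn =ᶠ[𝓝 s] (fun z => z * (z - 1) * Gammaℝ z / 2) * riemannZeta := by
    filter_upwards [hmem] with z hz
    have := sub_ne_zero.2 hz.2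
    rw [xiFn_eq hz.1, Pi.mul_apply, riemannZeta_eq_inv_sub_mul hz.2]
    field_simp
  rw [analyticOrderNatAt, analyticOrderAt_congr he, analyticOrderAt_mul hu hz,
    hu.analyticOrderAt_eq_zero.2 hu0, zero_add, ← analyticOrderNatAt]

theorem analyticOrderNatAt_one_sub (s : ℂ) :
    analyticOrderNatAt xiFn (1 - s) = analyticOrderNatAt xiFn s := by
  have hg : AnalyticAt ℂ (fun z : ℂ => 1 - z) s := by fun_prop
  have hd : deriv (fun z : ℂ => 1 - z) s ≠ 0 := by simp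
  have h := analyticOrderAt_comp_of_deriv_ne_zero (f := xiFn) hg hd
  rw [show (xiFn ∘ fun z : ℂ => 1 - z) = xiFn from funext xiFn_one_sub] at h
  rw [analyticOrderNatAt, ← h, ← analyticOrderNatAt]

/-- `ξ` on a disc: a polynomial times a function without zeros there. -/
theorem exists_xi_factor {R : ℝ} (hR : 0 < R) :
    ∃ (Z : Multiset ℂ) (h : ℂ → ℂ), Differentiable ℂ h ∧
      (∀ s, xiFn s = rootProd Z s * h s) ∧ (∀ ρ ∈ Z, xiFn ρ = 0) ∧
      (∀ s ∈ closedBall (2 : ℂ) R, h s ≠ 0) ∧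
      ∀ s ∈ closedBall (2 : ℂ) R, analyticOrderNatAt xiFn s = Z.count s := by
  obtain ⟨f, hf⟩ : ∃ f : ℂ → ℂ, f = fun z => xiFn (2 + z) := ⟨_, rfl⟩
  have hfd : Differentiable ℂ f := hf ▸ differentiable_xiFn.comp (differentiable_id.const_add 2)
  have h0 : f 0 ≠ 0 := by
    rw [hf]
    simpa using xiFn_ne_zero_of_one_le (s := 2) (by norm_num)
  obtain ⟨M, hM⟩ := (isCompact_sphere (0 : ℂ) (R + 1)).exists_bound_of_continuousOn
    hfd.continuous.continuousOn
  obtain ⟨Z, h, hh, he, hZ, hne, -, hord⟩ := exists_factor (U := univ) (r := R + 1)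
    (B := |M| / ‖f 0‖) isOpen_univ (subset_univ _) hR (by linarith) hfd.differentiableOn h0
    (fun z hz => by
      rw [div_mul_cancel₀ _ (norm_ne_zero_iff.2 h0)]
      exact (hM z hz).trans (le_abs_self M))
  have hshift : ∀ s, rootProd (Z.map fun ρ => ρ + 2) s = rootProd Z (s - 2) := fun s => by
    rw [rootProd, rootProd, Multiset.map_map]
    congr 1
    refine Multiset.map_congr rfl fun ρ _ => ?_
    simp only [Function.comp_apply]
    ring
  refine ⟨Z.map fun ρ => ρ + 2, fun s => h (s - 2),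
    (differentiableOn_univ.1 hh).comp (differentiable_id.sub_const 2), fun s => ?_, fun ρ hρ => ?_,
    fun s hs => ?_, fun s hs => ?_⟩
  · rw [hshift, ← he, hf]
    simp
  · obtain ⟨x, hx, rfl⟩ := Multiset.mem_map.1 hρ
    have h1 : f x = 0 := by
      rw [he x]
      refine mul_eq_zero_of_left ?_ _
      simp only [rootProd, Multiset.prod_eq_zero_iff, Multiset.mem_map]
      exact ⟨x, hx, sub_self x⟩
    rw [hf] at h1
    rwa [add_comm]
  · refine hne _ ?_
    rw [mem_closedBall_zero_iff]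
    simpa [dist_eq_norm] using hs
  · have h1 := hord (s - 2) (by rw [mem_closedBall_zero_iff]; simpa [dist_eq_norm] using hs)
    rw [show Multiset.count s (Z.map fun ρ => ρ + 2) = Z.count (s - 2) by
      conv_lhs => rw [show s = (fun ρ : ℂ => ρ + 2) (s - 2) by simp]
      exact Multiset.count_map_eq_count' _ _ (add_left_injective 2) _, ← h1]
    have h := analyticOrderAt_comp_of_deriv_ne_zero (f := xiFn) (g := fun z : ℂ => 2 + z)
      (z₀ := s - 2) (by fun_prop) (by simp)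
    rw [show (xiFn ∘ fun z : ℂ => 2 + z) = f by rw [hf]; rfl] at h
    simp only [add_sub_cancel] at h
    rw [analyticOrderNatAt, ← h, ← analyticOrderNatAt]

theorem finite_xi_zeros (R : ℝ) : {s : ℂ | xiFn s = 0 ∧ ‖s - 2‖ ≤ R}.Finite := by
  obtain ⟨Z, h, -, he, -, hne, -⟩ := exists_xi_factor (R := max R 1) (by positivity)
  refine Z.toFinset.finite_toSet.subset fun s hs => ?_
  have h1 := hs.1
  rw [he s] at h1
  have hm : s ∈ closedBall (2 : ℂ) (max R 1) := by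
    rw [mem_closedBall, dist_eq_norm]
    exact hs.2.trans (le_max_left _ _)
  have h2 : rootProd Z s = 0 := (mul_eq_zero.1 h1).resolve_right (hne s hm)
  simp only [rootProd, Multiset.prod_eq_zero_iff, Multiset.mem_map] at h2
  obtain ⟨x, hx, hsx⟩ := h2
  rw [Finset.mem_coe, Multiset.mem_toFinset]
  rwa [sub_eq_zero.1 hsx]

/-- The zeros `ρ` of `ζ` with `0 < re ρ < 1` and `0 < im ρ ≤ T`. -/
def zetaZeros (T : ℝ) : Set ℂ :=
  {ρ | riemannZeta ρ = 0 ∧ 0 < ρ.re ∧ ρ.re < 1 ∧ 0 < ρ.im ∧ ρ.im ≤ T}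

theorem mem_zetaZeros_iff {T : ℝ} {ρ : ℂ} :
    ρ ∈ zetaZeros T ↔ xiFn ρ = 0 ∧ 0 < ρ.im ∧ ρ.im ≤ T := by
  constructor
  · rintro ⟨h, h0, h1, h2, h3⟩
    exact ⟨(xiFn_eq_zero_iff h0 fun h' => by rw [h'] at h1; simp at h1).2 h, h2, h3⟩
  · rintro ⟨h, h2, h3⟩
    obtain ⟨h0, h1⟩ := xiFn_zero_strip h
    exact ⟨(xiFn_eq_zero_iff h0 fun h' => by rw [h'] at h1; simp at h1).1 h, h0, h1, h2, h3⟩

theorem finite_zetaZeros (T : ℝ) : (zetaZeros T).Finite :=
  (finite_xi_zeros (|T| + 2)).subset fun ρ hρ => by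
    obtain ⟨h, h2, h3⟩ := mem_zetaZeros_iff.1 hρ
    obtain ⟨h0, h1⟩ := xiFn_zero_strip h
    refine ⟨h, (norm_le_abs_re_add_abs_im _).trans ?_⟩
    simp only [sub_re, sub_im, re_ofNat, im_ofNat, sub_zero]
    rw [abs_of_pos h2, abs_of_neg (by linarith)]
    linarith [le_abs_self T]

/-- The number of these zeros, with multiplicity. -/
def zeroCount (T : ℝ) : ℕ :=
  ∑ ρ ∈ (finite_zetaZeros T).toFinset, analyticOrderNatAt riemannZeta ρ

theorem zeroCount_eq (T : ℝ) :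
    zeroCount T = ∑ ρ ∈ (finite_zetaZeros T).toFinset, analyticOrderNatAt xiFn ρ := by
  refine Finset.sum_congr rfl fun ρ hρ => ?_
  rw [Set.Finite.mem_toFinset] at hρ
  obtain ⟨-, h0, h1, -, -⟩ := hρ
  exact (analyticOrderNatAt_xiFn h0 fun h => by rw [h] at h1; simp at h1).symm

/-- The local expansion of `ζ'/ζ` at height `t`. -/
theorem exists_zeta_expansion : ∃ K, 0 ≤ K ∧ ∀ t : ℝ, 3 ≤ |t| →
    ∃ Z : Multiset ℂ,
      (∀ ρ ∈ Z, ‖ρ - (((3 / 2 : ℝ) : ℂ) + t * I)‖ ≤ 23 / 20) ∧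
      (Multiset.card Z : ℝ) ≤ K * ell t ∧
      (∀ s : ℂ, ‖s - (((3 / 2 : ℝ) : ℂ) + t * I)‖ ≤ 23 / 20 →
        analyticOrderNatAt riemannZeta s = Z.count s) ∧
      ∀ s : ℂ, ‖s - (((3 / 2 : ℝ) : ℂ) + t * I)‖ ≤ 21 / 20 → riemannZeta s ≠ 0 →
        ‖deriv riemannZeta s / riemannZeta s - (Z.map fun ρ => (s - ρ)⁻¹).sum‖ ≤ K * ell t := by
  obtain ⟨K, hK, hexp⟩ := exists_logDeriv_expansion (r₁ := 23 / 20) (r := 5 / 4) (r₂ := 21 / 20)
    (by norm_num) (by norm_num) (by norm_num)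
  refine ⟨3 * K, by positivity, fun t ht => ?_⟩
  obtain ⟨s₀, hs₀⟩ : ∃ s₀ : ℂ, s₀ = ((3 / 2 : ℝ) : ℂ) + t * I := ⟨_, rfl⟩
  rw [← hs₀]
  have hre : s₀.re = 3 / 2 := by simp [hs₀]
  have him : s₀.im = t := by simp [hs₀]
  obtain ⟨f, hf⟩ : ∃ f : ℂ → ℂ, f = fun z => riemannZeta (s₀ + z) := ⟨_, rfl⟩
  have hne : ∀ z ∈ ball (0 : ℂ) (3 / 2), s₀ + z ≠ 1 := fun z hz h => by
    rw [mem_ball_zero_iff] at hz
    have h1 := congrArg Complex.im h
    simp only [add_im, him, one_im] at h1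
    have h2 := abs_im_le_norm z
    rw [show z.im = -t by linarith, abs_neg] at h2
    linarith
  have hd : DifferentiableOn ℂ f (ball 0 (3 / 2)) := fun z hz => by
    rw [hf]
    exact ((differentiableAt_riemannZeta (hne z hz)).comp z
      (differentiableAt_id.const_add s₀)).differentiableWithinAt
  have hlow : 1 / 8 ≤ ‖f 0‖ := by
    have := FA.DLVP.zeta_lower (δ := 1 / 2) (by norm_num) (by norm_num) t
    rw [show ((1 + 1 / 2 : ℝ) : ℂ) + t * I = s₀ by rw [hs₀]; norm_num] at this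
    norm_num at this
    simpa [hf] using this
  obtain ⟨B, hB⟩ : ∃ B, B = 40 * (|t| + 6) := ⟨_, rfl⟩
  have hB1 : 1 ≤ B := by linarith [abs_nonneg t]
  have hb : ∀ z ∈ sphere (0 : ℂ) (5 / 4), ‖f z‖ ≤ B * ‖f 0‖ := fun z hz => by
    rw [mem_sphere_zero_iff_norm] at hz
    have h1 := abs_le.1 ((abs_re_le_norm z).trans hz.le)
    have h2 := (abs_im_le_norm z).trans hz.le
    have h3 := abs_sub_abs_le_abs_sub t (-z.im)
    rw [abs_neg, sub_neg_eq_add] at h3
    rw [hf]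
    refine (FA.DLVP.norm_zeta_crude (by rw [add_re, hre]; linarith) (by rw [add_re, hre]; linarith)
      (by rw [add_im, him]; linarith)).trans ?_
    rw [add_im, him]
    calc 5 * (|t + z.im| + 3) ≤ B * (1 / 8) := by linarith [abs_add_le t z.im]
      _ ≤ _ := mul_le_mul_of_nonneg_left (by simpa [hf] using hlow) (by linarith)
  obtain ⟨Z, hZ, hcard, hord, hlog⟩ := hexp (ball 0 (3 / 2)) f B isOpen_ball
    (closedBall_subset_ball (by norm_num)) hd
    (norm_pos_iff.1 (lt_of_lt_of_le (by norm_num) hlow)) hB1 hb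
  have hlogB : Real.log B + 1 ≤ 3 * ell t := by
    have : Real.log B ≤ 2 * ell t := by
      rw [show (2 : ℝ) * ell t = Real.log ((|t| + 100) ^ 2) by rw [Real.log_pow]; rfl]
      exact Real.log_le_log (by linarith) (by nlinarith [abs_nonneg t])
    linarith [four_le_ell t]
  have hKl : K * (Real.log B + 1) ≤ 3 * K * ell t :=
    (mul_le_mul_of_nonneg_left hlogB hK).trans (le_of_eq (by ring))
  refine ⟨Z.map fun ρ => ρ + s₀, fun ρ hρ => ?_, ?_, fun s hs => ?_, fun s hs hz => ?_⟩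
  · obtain ⟨x, hx, rfl⟩ := Multiset.mem_map.1 hρ
    simpa using mem_closedBall_zero_iff.1 (hZ x hx)
  · rw [Multiset.card_map]
    exact hcard.trans hKl
  · have h1 := hord (s - s₀) (mem_closedBall_zero_iff.2 hs)
    rw [show Multiset.count s (Z.map fun ρ => ρ + s₀) = Z.count (s - s₀) by
      conv_lhs => rw [show s = (fun ρ : ℂ => ρ + s₀) (s - s₀) by simp]
      exact Multiset.count_map_eq_count' _ _ (add_left_injective s₀) _, ← h1]
    have h := analyticOrderAt_comp_of_deriv_ne_zero (f := riemannZeta)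
      (g := fun z : ℂ => s₀ + z) (z₀ := s - s₀) (by fun_prop) (by simp)
    rw [show (riemannZeta ∘ fun z : ℂ => s₀ + z) = f by rw [hf]; rfl] at h
    simp only [add_sub_cancel] at h
    rw [analyticOrderNatAt, ← h, ← analyticOrderNatAt]
  · have h1 := hlog (s - s₀) (mem_closedBall_zero_iff.2 hs) (by simpa [hf] using hz)
    simp only [hf, deriv_comp_const_add, add_sub_cancel] at h1
    rw [Multiset.map_map]
    refine le_trans (le_of_eq ?_) (h1.trans hKl)
    congr 3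
    refine Multiset.map_congr rfl fun ρ _ => ?_
    simp only [Function.comp_apply]
    congr 1
    ring

/-- The zeros in a window, in the right half of the strip. -/
theorem exists_window_right : ∃ K, 0 ≤ K ∧ ∀ (t : ℝ) (S : Finset ℂ), 3 ≤ |t| →
    (∀ ρ ∈ S, 1 / 2 ≤ ρ.re ∧ ρ.re < 1 ∧ |ρ.im - t| ≤ 2 / 5) →
    ((∑ ρ ∈ S, analyticOrderNatAt xiFn ρ : ℕ) : ℝ) ≤ K * ell t := by
  obtain ⟨K, hK, hexp⟩ := exists_zeta_expansion
  refine ⟨K, hK, fun t S ht hS => ?_⟩
  obtain ⟨Z, -, hcard, hord, -⟩ := hexp t ht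
  refine le_trans ?_ hcard
  refine Nat.cast_le.2 ?_
  calc ∑ ρ ∈ S, analyticOrderNatAt xiFn ρ = ∑ ρ ∈ S, Z.count ρ := by
        refine Finset.sum_congr rfl fun ρ hρ => ?_
        obtain ⟨h0, h1, h2⟩ := hS ρ hρ
        rw [analyticOrderNatAt_xiFn (by linarith) fun h => by rw [h] at h1; simp at h1]
        refine hord ρ ?_
        have e : ‖ρ - (((3 / 2 : ℝ) : ℂ) + t * I)‖ ^ 2 = (ρ.re - 3 / 2) ^ 2 + (ρ.im - t) ^ 2 := by
          rw [Complex.sq_norm, Complex.normSq_apply]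
          simp
          ring
        have h3 : (ρ.im - t) ^ 2 ≤ (2 / 5) ^ 2 := by
          rw [← sq_abs]
          exact pow_le_pow_left₀ (abs_nonneg _) h2 2
        nlinarith [norm_nonneg (ρ - (((3 / 2 : ℝ) : ℂ) + t * I))]
    _ ≤ ∑ ρ ∈ S ∪ Z.toFinset, Z.count ρ :=
        Finset.sum_le_sum_of_subset Finset.subset_union_left
    _ = Multiset.card Z :=
        Multiset.sum_count_eq_card fun ρ hρ =>
          Finset.mem_union_right _ (Multiset.mem_toFinset.2 hρ)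

/-- **The zeros in a window.** -/
theorem exists_window : ∃ K, 0 ≤ K ∧ ∀ (t : ℝ) (S : Finset ℂ), 3 ≤ |t| →
    (∀ ρ ∈ S, xiFn ρ = 0 ∧ |ρ.im - t| ≤ 2 / 5) →
    ((∑ ρ ∈ S, analyticOrderNatAt xiFn ρ : ℕ) : ℝ) ≤ K * ell t := by
  obtain ⟨K, hK, h⟩ := exists_window_right
  refine ⟨2 * K, by positivity, fun t S ht hS => ?_⟩
  classical
  rw [← Finset.sum_filter_add_sum_filter_not S fun ρ => 1 / 2 ≤ ρ.re, Nat.cast_add]
  have h1 := h t (S.filter fun ρ => 1 / 2 ≤ ρ.re) ht fun ρ hρ => by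
    rw [Finset.mem_filter] at hρ
    exact ⟨hρ.2, (xiFn_zero_strip (hS ρ hρ.1).1).2, (hS ρ hρ.1).2⟩
  have h2 := h (-t) ((S.filter fun ρ => ¬1 / 2 ≤ ρ.re).image fun ρ => 1 - ρ)
    (by rwa [abs_neg]) fun ρ hρ => by
      obtain ⟨x, hx, rfl⟩ := Finset.mem_image.1 hρ
      rw [Finset.mem_filter, not_le] at hx
      obtain ⟨h0, h1⟩ := hS x hx.1
      refine ⟨by rw [sub_re, one_re]; linarith,
        by rw [sub_re, one_re]; linarith [(xiFn_zero_strip h0).1], ?_⟩
      rw [sub_im, one_im, zero_sub, ← abs_neg]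
      simpa [neg_sub, neg_add_eq_sub, sub_eq_add_neg, add_comm] using h1
  rw [Finset.sum_image fun _ _ _ _ h => sub_right_injective h,
    Finset.sum_congr rfl fun ρ _ => analyticOrderNatAt_one_sub ρ] at h2
  rw [show ell (-t) = ell t by rw [ell, ell, abs_neg]] at h2
  linarith

theorem zeroCount_mono {S T : ℝ} (h : S ≤ T) : zeroCount S ≤ zeroCount T :=
  Finset.sum_le_sum_of_subset fun ρ hρ => by
    rw [Set.Finite.mem_toFinset] at hρ ⊢
    exact ⟨hρ.1, hρ.2.1, hρ.2.2.1, hρ.2.2.2.1, hρ.2.2.2.2.trans h⟩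

/-- **The count grows by `O (log T)` over an interval of length `1`.** -/
theorem exists_zeroCount_succ : ∃ C, 0 ≤ C ∧ ∀ T : ℝ, 0 ≤ T →
    (zeroCount (T + 1) : ℝ) ≤ zeroCount T + C * ell T := by
  obtain ⟨K, hK, h⟩ := exists_window
  refine ⟨5 / 2 * K + zeroCount 4, by positivity, fun T hT => ?_⟩
  have hl := four_le_ell T
  have hN : (0 : ℝ) ≤ zeroCount 4 := Nat.cast_nonneg _
  rcases lt_or_ge T 3 with hT3 | hT3
  · have h1 : (zeroCount (T + 1) : ℝ) ≤ zeroCount 4 :=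
      Nat.cast_le.2 (zeroCount_mono (by linarith))
    nlinarith [(zeroCount T).cast_nonneg (α := ℝ), mul_nonneg hK (show 0 ≤ ell T by linarith),
      le_mul_of_one_le_right hN (show 1 ≤ ell T by linarith)]
  classical
  obtain ⟨D, hD⟩ : ∃ D, D = (finite_zetaZeros (T + 1)).toFinset \ (finite_zetaZeros T).toFinset :=
    ⟨_, rfl⟩
  have hsub : (finite_zetaZeros T).toFinset ⊆ (finite_zetaZeros (T + 1)).toFinset := fun ρ hρ => by
    rw [Set.Finite.mem_toFinset] at hρ ⊢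
    exact ⟨hρ.1, hρ.2.1, hρ.2.2.1, hρ.2.2.2.1, hρ.2.2.2.2.trans (by linarith)⟩
  have hmem : ∀ ρ ∈ D, xiFn ρ = 0 ∧ T < ρ.im ∧ ρ.im ≤ T + 1 := fun ρ hρ => by
    rw [hD, Finset.mem_sdiff, Set.Finite.mem_toFinset, Set.Finite.mem_toFinset,
      mem_zetaZeros_iff, mem_zetaZeros_iff] at hρ
    exact ⟨hρ.1.1, not_le.1 fun hle => hρ.2 ⟨hρ.1.1, hρ.1.2.1, hle⟩, hρ.1.2.2⟩
  have hsplit : zeroCount (T + 1) =
      (∑ ρ ∈ D, analyticOrderNatAt xiFn ρ) + zeroCount T := by
    rw [zeroCount_eq, zeroCount_eq, hD, Finset.sum_sdiff hsub]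
  have h1 := h (T + 2 / 5) (D.filter fun ρ => ρ.im ≤ T + 4 / 5)
    (by rw [abs_of_pos (by linarith)]; linarith) fun ρ hρ => by
      rw [Finset.mem_filter] at hρ
      obtain ⟨h0, h1, -⟩ := hmem ρ hρ.1
      exact ⟨h0, abs_le.2 ⟨by linarith, by linarith [hρ.2]⟩⟩
  have h2 := h (T + 4 / 5) (D.filter fun ρ => ¬ρ.im ≤ T + 4 / 5)
    (by rw [abs_of_pos (by linarith)]; linarith) fun ρ hρ => by
      rw [Finset.mem_filter, not_le] at hρ
      obtain ⟨h0, h1, h3⟩ := hmem ρ hρ.1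
      exact ⟨h0, abs_le.2 ⟨by linarith [hρ.2], by linarith⟩⟩
  have e1 : ell (T + 2 / 5) ≤ 5 / 4 * ell T := ell_near (by norm_num)
  have e2 : ell (T + 4 / 5) ≤ 5 / 4 * ell T := ell_near (by norm_num)
  rw [hsplit, ← Finset.sum_filter_add_sum_filter_not D fun ρ => ρ.im ≤ T + 4 / 5]
  push_cast at h1 h2 ⊢
  nlinarith [mul_le_mul_of_nonneg_left e1 hK, mul_le_mul_of_nonneg_left e2 hK,
    mul_nonneg hN (show 0 ≤ ell T by linarith)]

end FA.RiemannMangoldt

end
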