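import Fermat.Agent.DelaValleePoussin.Landau
import Mathlib.Analysis.Analytic.Order

/-!
# The zeros of a function on a disc and its logarithmic derivative

If `‖f‖ ≤ B ‖f 0‖` on the circle of radius `r`, then `f` is a polynomial with roots in the disc
of radius `r₁ < r` times a function without zeros there, the number of roots is at most
`log B / log (r / r₁)`, and on a smaller disc `f'/f` is the sum of the `1 / (z - ρ)` up to
`O (log B + 1)`.
-/

set_option autoImplicit false

noncomputable section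

namespace FA.RiemannMangoldt

open Complex Metric Set Filter Topology
open scoped ComplexConjugate

variable {f h : ℂ → ℂ} {U : Set ℂ} {r r₁ B : ℝ} {Z : Multiset ℂ}

/-- The monic polynomial with the given roots. -/
def rootProd (Z : Multiset ℂ) (z : ℂ) : ℂ := (Z.map fun ρ => z - ρ).prod

/-- Its reflection in the circle of radius `r`. -/
def mirrorProd (r : ℝ) (Z : Multiset ℂ) (z : ℂ) : ℂ :=
  (Z.map fun ρ => ((r : ℂ) ^ 2 - conj ρ * z) / r).prod

theorem rootProd_cons (ρ : ℂ) (Z : Multiset ℂ) (z : ℂ) :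
    rootProd (ρ ::ₘ Z) z = (z - ρ) * rootProd Z z := by simp [rootProd]

theorem rootProd_ne_zero {z : ℂ} (hz : ∀ ρ ∈ Z, z ≠ ρ) : rootProd Z z ≠ 0 := by
  simp only [rootProd, ne_eq, Multiset.prod_eq_zero_iff, Multiset.mem_map, not_exists, not_and]
  exact fun ρ hρ h => hz ρ hρ (sub_eq_zero.1 h)

theorem differentiable_rootProd (Z : Multiset ℂ) : Differentiable ℂ (rootProd Z) := by
  induction Z using Multiset.induction_on with
  | empty => simp [show rootProd 0 = fun _ => (1 : ℂ) by funext z; simp [rootProd]]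
  | cons ρ Z ih =>
    rw [show rootProd (ρ ::ₘ Z) = fun z => (z - ρ) * rootProd Z z from funext (rootProd_cons ρ Z)]
    exact (differentiable_id.sub_const ρ).mul ih

theorem differentiable_mirrorProd (r : ℝ) (Z : Multiset ℂ) :
    Differentiable ℂ (mirrorProd r Z) := by
  induction Z using Multiset.induction_on with
  | empty => simp [show mirrorProd r 0 = fun _ => (1 : ℂ) by funext z; simp [mirrorProd]]
  | cons ρ Z ih =>
    rw [show mirrorProd r (ρ ::ₘ Z) = fun z => ((r : ℂ) ^ 2 - conj ρ * z) / r * mirrorProd r Z z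
      by funext z; simp [mirrorProd]]
    exact (((differentiable_id.const_mul _).const_sub _).div_const _).mul ih

theorem norm_mirrorProd (hr : 0 < r) {z : ℂ} (hz : ‖z‖ = r) :
    ‖mirrorProd r Z z‖ = ‖rootProd Z z‖ := by
  induction Z using Multiset.induction_on with
  | empty => simp [mirrorProd, rootProd]
  | cons ρ Z ih =>
    have e : ((r : ℂ) ^ 2 - conj ρ * z) = z * conj (z - ρ) := by
      rw [map_sub, mul_sub, mul_conj, ← Complex.sq_norm, hz]
      push_cast
      ring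
    rw [rootProd_cons, show mirrorProd r (ρ ::ₘ Z) z =
      ((r : ℂ) ^ 2 - conj ρ * z) / r * mirrorProd r Z z by simp [mirrorProd], norm_mul, norm_mul,
      ih, e, norm_div, norm_mul, Complex.norm_conj, hz, Complex.norm_real,
      Real.norm_of_nonneg hr.le]
    field_simp

theorem mirrorProd_zero (hr : r ≠ 0) : mirrorProd r Z 0 = (r : ℂ) ^ Multiset.card Z := by
  have : (r : ℂ) ≠ 0 := ofReal_ne_zero.2 hr
  induction Z using Multiset.induction_on with
  | empty => simp [mirrorProd]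
  | cons ρ Z ih =>
    rw [show mirrorProd r (ρ ::ₘ Z) 0 = ((r : ℂ) ^ 2 - conj ρ * 0) / r * mirrorProd r Z 0 by
      simp [mirrorProd], ih, Multiset.card_cons, pow_succ']
    field_simp
    ring

theorem norm_rootProd_le {z : ℂ} {a : ℝ} (ha : 0 ≤ a) (h : ∀ ρ ∈ Z, ‖z - ρ‖ ≤ a) :
    ‖rootProd Z z‖ ≤ a ^ Multiset.card Z := by
  induction Z using Multiset.induction_on with
  | empty => simp [rootProd]
  | cons ρ Z ih =>
    rw [rootProd_cons, norm_mul, Multiset.card_cons, pow_succ']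
    exact mul_le_mul (h ρ (Multiset.mem_cons_self _ _))
      (ih fun x hx => h x (Multiset.mem_cons_of_mem hx)) (norm_nonneg _) ha

theorem le_norm_rootProd {z : ℂ} {a : ℝ} (ha : 0 ≤ a) (h : ∀ ρ ∈ Z, a ≤ ‖z - ρ‖) :
    a ^ Multiset.card Z ≤ ‖rootProd Z z‖ := by
  induction Z using Multiset.induction_on with
  | empty => simp [rootProd]
  | cons ρ Z ih =>
    rw [rootProd_cons, norm_mul, Multiset.card_cons, pow_succ']
    exact mul_le_mul (h ρ (Multiset.mem_cons_self _ _))
      (ih fun x hx => h x (Multiset.mem_cons_of_mem hx)) (pow_nonneg ha _) (norm_nonneg _)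

theorem hasDerivAt_rootProd {z : ℂ} (hz : ∀ ρ ∈ Z, z ≠ ρ) :
    HasDerivAt (rootProd Z) (rootProd Z z * (Z.map fun ρ => (z - ρ)⁻¹).sum) z := by
  induction Z using Multiset.induction_on with
  | empty =>
    simp only [show rootProd 0 = fun _ => (1 : ℂ) by funext z; simp [rootProd],
      Multiset.map_zero, Multiset.sum_zero, mul_zero]
    exact hasDerivAt_const z 1
  | cons ρ Z ih =>
    rw [show rootProd (ρ ::ₘ Z) = fun z => (z - ρ) * rootProd Z z from funext (rootProd_cons ρ Z)]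
    refine (((hasDerivAt_id' z).sub_const ρ).mul
      (ih fun x hx => hz x (Multiset.mem_cons_of_mem hx))).congr_deriv ?_
    have := sub_ne_zero.2 (hz ρ (Multiset.mem_cons_self _ _))
    rw [Multiset.map_cons, Multiset.sum_cons]
    field_simp

theorem analyticOrderAt_rootProd (Z : Multiset ℂ) (w : ℂ) :
    analyticOrderAt (rootProd Z) w = Z.count w := by
  induction Z using Multiset.induction_on with
  | empty =>
    simp [show rootProd 0 = fun _ => (1 : ℂ) by funext z; simp [rootProd], analyticOrderAt_eq_zero]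
  | cons ρ Z ih =>
    rw [show rootProd (ρ ::ₘ Z) = (fun z => z - ρ) * rootProd Z from funext (rootProd_cons ρ Z),
      analyticOrderAt_mul (show AnalyticAt ℂ (fun z => z - ρ) w by fun_prop)
        ((differentiable_rootProd Z).analyticAt w), ih, Multiset.count_cons]
    rcases eq_or_ne w ρ with rfl | hne
    · rw [if_pos rfl, show (fun z : ℂ => z - w) = (· - w) from rfl,
        analyticOrderAt_id_sub_const_self]
      push_cast
      ring
    · rw [if_neg hne, show (fun z : ℂ => z - ρ) = (· - ρ) from rfl,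
        analyticOrderAt_id_sub_const_of_ne hne]
      simp

/-- The count of the roots. -/
theorem card_bound (hsub : closedBall (0 : ℂ) r ⊆ U) (hr₁ : 0 < r₁) (hr : r₁ < r)
    (h0 : f 0 ≠ 0) (hb : ∀ z ∈ sphere (0 : ℂ) r, ‖f z‖ ≤ B * ‖f 0‖)
    (hh : DifferentiableOn ℂ h U) (he : ∀ z, f z = rootProd Z z * h z)
    (hZ : ∀ ρ ∈ Z, ρ ∈ closedBall (0 : ℂ) r₁) : (r / r₁) ^ Multiset.card Z ≤ B := by
  have hrp : 0 < r := hr₁.trans hr
  have hq : DifferentiableOn ℂ (fun z => mirrorProd r Z z * h z) U :=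
    (differentiable_mirrorProd r Z).differentiableOn.mul hh
  have h1 := FA.DLVP.norm_le_of_sphere hsub hrp hq (C := B * ‖f 0‖) (fun z hz => by
    rw [norm_mul, norm_mirrorProd hrp (mem_sphere_zero_iff_norm.1 hz), ← norm_mul, ← he]
    exact hb z hz) (mem_closedBall_self hrp.le)
  rw [norm_mul, mirrorProd_zero hrp.ne', norm_pow, Complex.norm_real,
    Real.norm_of_nonneg hrp.le] at h1
  have h2 : ‖f 0‖ ≤ r₁ ^ Multiset.card Z * ‖h 0‖ := by
    rw [he, norm_mul]
    exact mul_le_mul_of_nonneg_right (norm_rootProd_le hr₁.le fun ρ hρ => by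
      simpa using mem_closedBall_zero_iff.1 (hZ ρ hρ)) (norm_nonneg _)
  have hh0 : 0 < ‖h 0‖ := norm_pos_iff.2 fun h' => h0 (by rw [he, h', mul_zero])
  have hB : 0 ≤ B := by
    have := (mul_nonneg (pow_nonneg hrp.le (Multiset.card Z)) hh0.le).trans h1
    exact nonneg_of_mul_nonneg_left this (norm_pos_iff.2 h0)
  rw [div_pow, div_le_iff₀ (pow_pos hr₁ _)]
  refine le_of_mul_le_mul_right ?_ hh0
  calc r ^ Multiset.card Z * ‖h 0‖ ≤ B * ‖f 0‖ := h1
    _ ≤ B * (r₁ ^ Multiset.card Z * ‖h 0‖) := mul_le_mul_of_nonneg_left h2 hB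
    _ = _ := by ring

/-- **The factorisation.** -/
theorem exists_factor (hU : IsOpen U) (hsub : closedBall (0 : ℂ) r ⊆ U) (hr₁ : 0 < r₁)
    (hr : r₁ < r) (hf : DifferentiableOn ℂ f U) (h0 : f 0 ≠ 0)
    (hb : ∀ z ∈ sphere (0 : ℂ) r, ‖f z‖ ≤ B * ‖f 0‖) :
    ∃ (Z : Multiset ℂ) (h : ℂ → ℂ), DifferentiableOn ℂ h U ∧ (∀ z, f z = rootProd Z z * h z) ∧
      (∀ ρ ∈ Z, ρ ∈ closedBall (0 : ℂ) r₁) ∧ (∀ z ∈ closedBall (0 : ℂ) r₁, h z ≠ 0) ∧
      (r / r₁) ^ Multiset.card Z ≤ B ∧
      ∀ z ∈ closedBall (0 : ℂ) r₁, analyticOrderNatAt f z = Z.count z := by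
  obtain ⟨N, hN⟩ := pow_unbounded_of_one_lt B (show 1 < r / r₁ by rwa [one_lt_div hr₁])
  have hone : (1 : ℝ) ≤ r / r₁ := by rw [one_le_div hr₁]; exact hr.le
  suffices main : ∀ (m : ℕ) (Z : Multiset ℂ) (h : ℂ → ℂ), N ≤ Multiset.card Z + m →
      DifferentiableOn ℂ h U → (∀ z, f z = rootProd Z z * h z) →
      (∀ ρ ∈ Z, ρ ∈ closedBall (0 : ℂ) r₁) →
      ∃ (Z : Multiset ℂ) (h : ℂ → ℂ), DifferentiableOn ℂ h U ∧ (∀ z, f z = rootProd Z z * h z) ∧
        (∀ ρ ∈ Z, ρ ∈ closedBall (0 : ℂ) r₁) ∧ ∀ z ∈ closedBall (0 : ℂ) r₁, h z ≠ 0 by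
    obtain ⟨Z, h, hh, he, hZ, hne⟩ := main N 0 f (by simp) hf (fun z => by simp [rootProd])
      (by simp)
    refine ⟨Z, h, hh, he, hZ, hne, card_bound hsub hr₁ hr h0 hb hh he hZ, fun z hz => ?_⟩
    have hzU : z ∈ U := hsub (closedBall_subset_closedBall hr.le hz)
    have hha : AnalyticAt ℂ h z := hh.analyticAt (hU.mem_nhds hzU)
    have : analyticOrderAt f z = Z.count z := by
      rw [show f = rootProd Z * h from funext he,
        analyticOrderAt_mul ((differentiable_rootProd Z).analyticAt z) hha,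
        analyticOrderAt_rootProd, hha.analyticOrderAt_eq_zero.2 (hne z hz), add_zero]
    rw [analyticOrderNatAt, this, ENat.toNat_natCast]
  intro m
  induction m with
  | zero =>
    intro Z h hk hh he hZ
    have := (pow_le_pow_right₀ hone (by omega : N ≤ Multiset.card Z)).trans
      (card_bound hsub hr₁ hr h0 hb hh he hZ)
    linarith
  | succ m ih =>
    intro Z h hk hh he hZ
    by_cases hzero : ∃ ρ ∈ closedBall (0 : ℂ) r₁, h ρ = 0
    · obtain ⟨ρ, hρ, hhρ⟩ := hzero
      have hρU : ρ ∈ U := hsub (closedBall_subset_closedBall hr.le hρ)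
      refine ih (ρ ::ₘ Z) (dslope h ρ) (by rw [Multiset.card_cons]; omega)
        ((differentiableOn_dslope (hU.mem_nhds hρU)).2 hh) (fun z => ?_) (fun x hx => ?_)
      · have hd := sub_smul_dslope h ρ z
        rw [hhρ, sub_zero, smul_eq_mul] at hd
        rw [he z, rootProd_cons, ← hd]
        ring
      · rcases Multiset.mem_cons.1 hx with rfl | hx
        · exact hρ
        · exact hZ x hx
    · push Not at hzero
      exact ⟨Z, h, hh, he, hZ, hzero⟩

/-- **The logarithmic derivative near the centre.** -/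
theorem exists_logDeriv_expansion {r₂ : ℝ} (hr₂ : 0 ≤ r₂) (hr₂₁ : r₂ < r₁) (hr : r₁ < r) :
    ∃ K, 0 ≤ K ∧ ∀ (U : Set ℂ) (f : ℂ → ℂ) (B : ℝ), IsOpen U → closedBall (0 : ℂ) r ⊆ U →
      DifferentiableOn ℂ f U → f 0 ≠ 0 → 1 ≤ B →
      (∀ z ∈ sphere (0 : ℂ) r, ‖f z‖ ≤ B * ‖f 0‖) →
      ∃ Z : Multiset ℂ, (∀ ρ ∈ Z, ρ ∈ closedBall (0 : ℂ) r₁) ∧
        (Multiset.card Z : ℝ) ≤ K * (Real.log B + 1) ∧
        (∀ z ∈ closedBall (0 : ℂ) r₁, analyticOrderNatAt f z = Z.count z) ∧
        ∀ z ∈ closedBall (0 : ℂ) r₂, f z ≠ 0 →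
          ‖deriv f z / f z - (Z.map fun ρ => (z - ρ)⁻¹).sum‖ ≤ K * (Real.log B + 1) := by
  have hr₁ : 0 < r₁ := lt_of_le_of_lt hr₂ hr₂₁
  obtain ⟨q, hq⟩ : ∃ q, q = Real.log (r / r₁) := ⟨_, rfl⟩
  have hq0 : 0 < q := hq ▸ Real.log_pos (by rwa [one_lt_div hr₁])
  obtain ⟨M, hM⟩ : ∃ M, M = max 1 (r₁ / (r - r₁)) := ⟨_, rfl⟩
  have hM1 : 1 ≤ M := hM ▸ le_max_left _ _
  obtain ⟨A, hA⟩ : ∃ A, A = 8 * r₁ / (r₁ - r₂) ^ 2 := ⟨_, rfl⟩
  have hA0 : 0 ≤ A := by rw [hA]; positivity
  have hlogM : 0 ≤ Real.log M := Real.log_nonneg hM1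
  refine ⟨1 / q + A * (1 + Real.log M / q), by positivity, fun U f B hU hsub hf h0 hB hb => ?_⟩
  obtain ⟨Z, h, hh, he, hZ, hne, hcard, hord⟩ := exists_factor hU hsub hr₁ hr hf h0 hb
  have hlB : 0 ≤ Real.log B := Real.log_nonneg hB
  have hk : (Multiset.card Z : ℝ) ≤ Real.log B / q := by
    rw [le_div_iff₀ hq0, hq, ← Real.log_pow]
    exact Real.log_le_log (pow_pos (div_pos (hr₁.trans hr) hr₁) _) hcard
  have hQ : 0 ≤ A * (1 + Real.log M / q) := by positivity
  refine ⟨Z, hZ, ?_, hord, fun z hz hfz => ?_⟩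
  · refine hk.trans ?_
    rw [add_mul, div_eq_mul_one_div, mul_comm]
    nlinarith [show 0 ≤ 1 / q by positivity]
  -- the factor without zeros
  obtain ⟨B', hB'⟩ : ∃ B', B' = B * M ^ Multiset.card Z * Real.exp 1 := ⟨_, rfl⟩
  have hB'1 : 1 < B' := by
    rw [hB']
    exact one_lt_mul_of_le_of_lt (one_le_mul_of_one_le_of_one_le hB (one_le_pow₀ hM1))
      (Real.one_lt_exp_iff.2 one_pos)
  have hlogB' : Real.log B' ≤ (1 + Real.log M / q) * (Real.log B + 1) := by
    rw [hB', Real.log_mul (by positivity) (Real.exp_pos 1).ne',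
      Real.log_mul (by positivity) (by positivity), Real.log_pow, Real.log_exp]
    have h1 := mul_le_mul_of_nonneg_right hk hlogM
    have h2 : Real.log B / q * Real.log M = Real.log M / q * Real.log B := by ring
    have h3 : 0 ≤ Real.log M / q := by positivity
    nlinarith
  have hbound : ∀ w ∈ ball (0 : ℂ) r₁, ‖h w‖ ≤ B' * ‖h 0‖ := by
    intro w hw
    have hC := FA.DLVP.norm_le_of_sphere hsub (hr₁.trans hr) hh (C := B' * ‖h 0‖) (fun v hv => ?_)
      (ball_subset_closedBall (ball_subset_ball hr.le hw))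
    · exact hC
    have hv' := mem_sphere_zero_iff_norm.1 hv
    have h1 := hb v hv
    rw [he v, norm_mul] at h1
    have h2 := le_norm_rootProd (z := v) (Z := Z) (a := r - r₁) (by linarith) fun ρ hρ => by
      have := norm_sub_norm_le v ρ
      rw [hv'] at this
      linarith [mem_closedBall_zero_iff.1 (hZ ρ hρ)]
    have h3 : ‖f 0‖ ≤ r₁ ^ Multiset.card Z * ‖h 0‖ := by
      rw [he, norm_mul]
      exact mul_le_mul_of_nonneg_right (norm_rootProd_le hr₁.le fun ρ hρ => by
        simpa using mem_closedBall_zero_iff.1 (hZ ρ hρ)) (norm_nonneg _)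
    have hp : 0 < (r - r₁) ^ Multiset.card Z := pow_pos (by linarith) _
    refine le_of_mul_le_mul_left (a := (r - r₁) ^ Multiset.card Z) ?_ hp
    calc (r - r₁) ^ Multiset.card Z * ‖h v‖ ≤ ‖rootProd Z v‖ * ‖h v‖ :=
          mul_le_mul_of_nonneg_right h2 (norm_nonneg _)
      _ ≤ B * ‖f 0‖ := h1
      _ ≤ B * (r₁ ^ Multiset.card Z * ‖h 0‖) := mul_le_mul_of_nonneg_left h3 (by linarith)
      _ ≤ B * ((M * (r - r₁)) ^ Multiset.card Z * ‖h 0‖) := by
          gcongr
          rw [← div_le_iff₀ (by linarith)]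
          exact hM ▸ le_max_right _ _
      _ ≤ B * ((M * (r - r₁)) ^ Multiset.card Z * ‖h 0‖) * Real.exp 1 :=
          le_mul_of_one_le_right (mul_nonneg (by linarith) (mul_nonneg (pow_nonneg
            (mul_nonneg (by linarith) (by linarith)) _) (norm_nonneg _)))
            (Real.one_le_exp one_pos.le)
      _ = _ := by rw [hB', mul_pow]; ring
  obtain ⟨g, hg, hgb⟩ := FA.DLVP.norm_log_le hr₁
    (hh.mono ((ball_subset_closedBall.trans (closedBall_subset_closedBall hr.le)).trans hsub))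
    (fun w hw => hne w (ball_subset_closedBall hw)) hB'1 hbound
  have hz' := mem_closedBall_zero_iff.1 hz
  have hzr : z ∈ ball (0 : ℂ) r₁ := mem_ball_zero_iff.2 (lt_of_le_of_lt hz' hr₂₁)
  have hsmall : closedBall z ((r₁ - r₂) / 2) ⊆ ball (0 : ℂ) r₁ := fun w hw => by
    rw [mem_closedBall, dist_eq_norm] at hw
    rw [mem_ball_zero_iff]
    linarith [norm_le_norm_add_norm_sub' w z]
  have hlogpos := Real.log_nonneg hB'1.le
  have hder : ‖deriv h z / h z‖ ≤ A * Real.log B' := by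
    rw [← (hg z hzr).deriv]
    refine (norm_deriv_le_of_forall_mem_sphere_norm_le (by linarith : 0 < (r₁ - r₂) / 2) ?_
      (C := 4 * r₁ * Real.log B' / (r₁ - r₂)) fun w hw => ?_).trans (le_of_eq ?_)
    · refine DifferentiableOn.diffContOnCl ?_
      rw [closure_ball _ (by linarith : (r₁ - r₂) / 2 ≠ 0)]
      exact fun w hw => (hg w (hsmall hw)).differentiableAt.differentiableWithinAt
    · have hwb := hsmall (sphere_subset_closedBall hw)
      rw [mem_sphere, dist_eq_norm] at hw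
      have h1 := norm_le_norm_add_norm_sub' w z
      refine (hgb w hwb).trans ?_
      calc 2 * Real.log B' * ‖w‖ / (r₁ - ‖w‖) ≤ 2 * Real.log B' * r₁ / ((r₁ - r₂) / 2) :=
            div_le_div₀ (by positivity)
              (mul_le_mul_of_nonneg_left (mem_ball_zero_iff.1 hwb).le (by positivity))
              (by linarith) (by linarith)
        _ = _ := by field_simp; ring
    · rw [hA]
      field_simp
      ring
  have hzne : ∀ ρ ∈ Z, z ≠ ρ := fun ρ hρ hzρ => hfz (by
    rw [he z]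
    refine mul_eq_zero_of_left ?_ _
    simp only [rootProd, Multiset.prod_eq_zero_iff, Multiset.mem_map]
    exact ⟨ρ, hρ, sub_eq_zero.2 hzρ⟩)
  have hzU : z ∈ U := hsub (closedBall_subset_closedBall hr.le (ball_subset_closedBall hzr))
  have hd : deriv f z = rootProd Z z * (Z.map fun ρ => (z - ρ)⁻¹).sum * h z +
      rootProd Z z * deriv h z := by
    rw [show f = fun w => rootProd Z w * h w from funext he]
    exact ((hasDerivAt_rootProd hzne).mul
      ((hh z hzU).differentiableAt (hU.mem_nhds hzU)).hasDerivAt).deriv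
  have e : deriv f z / f z - (Z.map fun ρ => (z - ρ)⁻¹).sum = deriv h z / h z := by
    have h1 := rootProd_ne_zero hzne
    have h2 := hne z (ball_subset_closedBall hzr)
    rw [hd, he z]
    field_simp
    ring
  rw [e]
  refine hder.trans ((mul_le_mul_of_nonneg_left hlogB' hA0).trans ?_)
  nlinarith [show 0 ≤ 1 / q by positivity]

end FA.RiemannMangoldt

end
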